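/-
S34 / Program B' (helper78): **closed points of a chart with Dedekind special fibre are regular
with parameters `(ϖ, t)`**  (the corollary of Theorem D that was never stated in S18; it is the
input `prime_q`, `max_S` of the abstract node package `S34.H46.NodeHyp`).

* `exists_local_generator` : in a Dedekind domain `D`, a maximal ideal `𝔪` is locally principal,
  in the elementary form `∃ t ∈ 𝔪, ∀ y ∈ 𝔪, ∃ s ∉ 𝔪, s * y ∈ (t)`.
* `exists_regular_parameter` : if `C ⧸ (ϖ)` is a Dedekind domain and `𝔫 ∋ ϖ` is a maximal ideal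
  of `C`, then `∃ t ∈ 𝔫, ∀ y ∈ 𝔫, ∃ s ∉ 𝔫, s * y ∈ (ϖ, t)`.
* `maximalIdeal_eq_span_of_isLocalization`, `maximalIdeal_atPrime_eq_span` : hence the maximal
  ideal of the local ring of `C` at `𝔫` is `(ϖ, t)`.
* `prime_algebraMap_of_isLocalization` : a prime element `ϖ ∈ 𝔫` stays prime in the local ring.
* `exists_nodeBase` : the two fields `prime_q`, `max_S` of `NodeHyp` for
  `S = Localization.AtPrime 𝔫`, `ϖ = q`.
Mathlib only.
-/
import Mathlib

set_option autoImplicit false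

namespace Fermat.Agent.S34.H78

open Ideal IsLocalRing

/-- In a Dedekind domain a maximal ideal is locally principal (elementary form). -/
theorem exists_local_generator {D : Type*} [CommRing D] [IsDedekindDomain D] (𝔪 : Ideal D)
    [h𝔪 : 𝔪.IsMaximal] : ∃ t ∈ 𝔪, ∀ y ∈ 𝔪, ∃ s, s ∉ 𝔪 ∧ s * y ∈ Ideal.span {t} := by
  by_cases hbot : 𝔪 = ⊥
  · refine ⟨0, 𝔪.zero_mem, fun y hy => ⟨1, ?_, ?_⟩⟩
    · exact fun h => h𝔪.ne_top ((Ideal.eq_top_iff_one _).2 h)
    · rw [hbot] at hy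
      rw [Ideal.mem_bot.1 hy, mul_zero]
      exact Ideal.zero_mem _
  · have : IsDiscreteValuationRing (Localization.AtPrime 𝔪) :=
      IsLocalization.AtPrime.isDiscreteValuationRing_of_dedekind_domain D hbot _
    obtain ⟨ϖ, hϖ⟩ := IsDiscreteValuationRing.exists_irreducible (Localization.AtPrime 𝔪)
    have hmax : maximalIdeal (Localization.AtPrime 𝔪) = Ideal.span {ϖ} := hϖ.maximalIdeal_eq
    have hinj : Function.Injective (algebraMap D (Localization.AtPrime 𝔪)) :=
      IsLocalization.injective _ (Ideal.primeCompl_le_nonZeroDivisors 𝔪)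
    obtain ⟨t, s, hts⟩ := IsLocalization.exists_mk'_eq 𝔪.primeCompl ϖ
    have hspec : ϖ * algebraMap D (Localization.AtPrime 𝔪) (s : D) =
        algebraMap D (Localization.AtPrime 𝔪) t := by
      rw [← hts]
      exact IsLocalization.mk'_spec _ t s
    have ht : t ∈ 𝔪 := by
      rw [← IsLocalization.AtPrime.to_map_mem_maximal_iff (Localization.AtPrime 𝔪) 𝔪 t, hmax,
        ← hspec]
      exact Ideal.mul_mem_right _ _ (Ideal.subset_span rfl)
    refine ⟨t, ht, fun y hy => ?_⟩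
    have hy' : algebraMap D (Localization.AtPrime 𝔪) y ∈ Ideal.span {ϖ} := by
      rw [← hmax]
      exact (IsLocalization.AtPrime.to_map_mem_maximal_iff (Localization.AtPrime 𝔪) 𝔪 y).2 hy
    obtain ⟨z, hz⟩ := Ideal.mem_span_singleton.1 hy'
    obtain ⟨a, s₂, rfl⟩ := IsLocalization.exists_mk'_eq 𝔪.primeCompl z
    refine ⟨(s : D) * (s₂ : D), (s * s₂).2, Ideal.mem_span_singleton.2 ⟨a, ?_⟩⟩
    apply hinj
    have h2 : IsLocalization.mk' (Localization.AtPrime 𝔪) a s₂ *
        algebraMap D (Localization.AtPrime 𝔪) (s₂ : D) =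
        algebraMap D (Localization.AtPrime 𝔪) a := IsLocalization.mk'_spec _ a s₂
    rw [map_mul, map_mul, map_mul, hz, ← hspec, ← h2]
    ring

/-- **Regular parameters at a closed point of the special fibre.**  If `C ⧸ (ϖ)` is a Dedekind
domain and `𝔫` is a maximal ideal of `C` containing `ϖ`, then `𝔫` is generated by `ϖ` and one
more element `t` locally at `𝔫`. -/
theorem exists_regular_parameter {C : Type*} [CommRing C] (ϖ : C)
    [IsDedekindDomain (C ⧸ Ideal.span {ϖ})] (𝔫 : Ideal C) [h𝔫 : 𝔫.IsMaximal] (hϖ : ϖ ∈ 𝔫) :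
    ∃ t ∈ 𝔫, ∀ y ∈ 𝔫, ∃ s, s ∉ 𝔫 ∧ s * y ∈ Ideal.span {ϖ, t} := by
  have hπs : Function.Surjective (Ideal.Quotient.mk (Ideal.span {ϖ})) :=
    Ideal.Quotient.mk_surjective
  have hker : RingHom.ker (Ideal.Quotient.mk (Ideal.span {ϖ})) ≤ 𝔫 := by
    rw [Ideal.mk_ker]
    exact (Ideal.span_singleton_le_iff_mem _).2 hϖ
  have hmax : (𝔫.map (Ideal.Quotient.mk (Ideal.span {ϖ}))).IsMaximal :=
    Ideal.IsMaximal.map_of_surjective_of_ker_le hπs hker
  obtain ⟨t', ht', h⟩ := exists_local_generator (𝔫.map (Ideal.Quotient.mk (Ideal.span {ϖ})))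
  obtain ⟨t, htn, rfl⟩ := (Ideal.mem_map_iff_of_surjective _ hπs).1 ht'
  refine ⟨t, htn, fun y hy => ?_⟩
  obtain ⟨s', hs', hsy⟩ := h (Ideal.Quotient.mk (Ideal.span {ϖ}) y) (Ideal.mem_map_of_mem _ hy)
  obtain ⟨s, rfl⟩ := hπs s'
  refine ⟨s, fun hs => hs' (Ideal.mem_map_of_mem _ hs), ?_⟩
  obtain ⟨a', ha'⟩ := Ideal.mem_span_singleton'.1 hsy
  obtain ⟨a, rfl⟩ := hπs a'
  have h0 : Ideal.Quotient.mk (Ideal.span {ϖ}) (s * y - a * t) = 0 := by
    rw [map_sub, map_mul, map_mul, ha', sub_self]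
  rw [Ideal.Quotient.eq_zero_iff_mem, Ideal.mem_span_singleton'] at h0
  obtain ⟨c, hc⟩ := h0
  have h1 : s * y = c * ϖ + a * t := by
    rw [hc]
    ring
  rw [h1]
  exact Ideal.add_mem _ (Ideal.mul_mem_left _ _ (Ideal.subset_span (by simp)))
    (Ideal.mul_mem_left _ _ (Ideal.subset_span (by simp)))

/-- The maximal ideal of a localisation of `C` at a closed point `𝔫 ∋ ϖ` of a Dedekind special
fibre is `(ϖ, t)`. -/
theorem maximalIdeal_eq_span_of_isLocalization {C : Type*} [CommRing C] (ϖ : C)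
    [IsDedekindDomain (C ⧸ Ideal.span {ϖ})] (𝔫 : Ideal C) [h𝔫 : 𝔫.IsMaximal] (hϖ : ϖ ∈ 𝔫)
    (S : Type*) [CommRing S] [Algebra C S] [IsLocalization.AtPrime S 𝔫] [IsLocalRing S] :
    ∃ t ∈ 𝔫, maximalIdeal S = Ideal.span {algebraMap C S ϖ, algebraMap C S t} := by
  obtain ⟨t, ht, h⟩ := exists_regular_parameter ϖ 𝔫 hϖ
  refine ⟨t, ht, le_antisymm ?_ ?_⟩
  · intro z hz
    obtain ⟨y, s, rfl⟩ := IsLocalization.exists_mk'_eq 𝔫.primeCompl z
    have hy : y ∈ 𝔫 := (IsLocalization.AtPrime.mk'_mem_maximal_iff S 𝔫 y s).1 hz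
    obtain ⟨s', hs', hsy⟩ := h y hy
    have h1 : algebraMap C S (s' * y) ∈
        Ideal.span {algebraMap C S ϖ, algebraMap C S t} := by
      have := Ideal.mem_map_of_mem (algebraMap C S) hsy
      rwa [Ideal.map_span, Set.image_pair] at this
    have hu : IsUnit (algebraMap C S (s : C) * algebraMap C S s') :=
      (IsLocalization.map_units S s).mul ((IsLocalization.AtPrime.isUnit_to_map_iff S 𝔫 s').2 hs')
    rw [← Ideal.mul_unit_mem_iff_mem _ hu]
    have h2 : IsLocalization.mk' S y s * (algebraMap C S (s : C) * algebraMap C S s') =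
        algebraMap C S (s' * y) := by
      rw [← mul_assoc, IsLocalization.mk'_spec, map_mul, mul_comm]
    rw [h2]
    exact h1
  · rw [Ideal.span_le]
    intro z hz
    rcases hz with rfl | hz
    · exact (IsLocalization.AtPrime.to_map_mem_maximal_iff S 𝔫 ϖ).2 hϖ
    · rw [Set.mem_singleton_iff] at hz
      rw [hz]
      exact (IsLocalization.AtPrime.to_map_mem_maximal_iff S 𝔫 t).2 ht

/-- The same for `Localization.AtPrime 𝔫`. -/
theorem maximalIdeal_atPrime_eq_span {C : Type*} [CommRing C] (ϖ : C)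
    [IsDedekindDomain (C ⧸ Ideal.span {ϖ})] (𝔫 : Ideal C) [h𝔫 : 𝔫.IsMaximal] (hϖ : ϖ ∈ 𝔫) :
    ∃ t ∈ 𝔫, maximalIdeal (Localization.AtPrime 𝔫) =
      Ideal.span {algebraMap C (Localization.AtPrime 𝔫) ϖ,
        algebraMap C (Localization.AtPrime 𝔫) t} :=
  maximalIdeal_eq_span_of_isLocalization ϖ 𝔫 hϖ (Localization.AtPrime 𝔫)

/-- `ϖ` is a prime element as soon as it is nonzero and `C ⧸ (ϖ)` is a domain. -/
theorem prime_of_isDomain_quotient {C : Type*} [CommRing C] {ϖ : C} (h0 : ϖ ≠ 0)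
    [IsDomain (C ⧸ Ideal.span {ϖ})] : Prime ϖ :=
  (Ideal.span_singleton_prime h0).1 ((Ideal.Quotient.isDomain_iff_prime _).1 inferInstance)

/-- A prime element contained in the prime `𝔫` stays prime in the localisation at `𝔫`. -/
theorem prime_algebraMap_of_isLocalization {C : Type*} [CommRing C] [IsDomain C] {ϖ : C}
    (hϖ : Prime ϖ) (𝔫 : Ideal C) [h𝔫 : 𝔫.IsPrime] (hϖn : ϖ ∈ 𝔫)
    (S : Type*) [CommRing S] [Algebra C S] [IsLocalization.AtPrime S 𝔫] :
    Prime (algebraMap C S ϖ) := by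
  have hinj : Function.Injective (algebraMap C S) :=
    IsLocalization.injective _ (Ideal.primeCompl_le_nonZeroDivisors 𝔫)
  have h0 : algebraMap C S ϖ ≠ 0 := fun h => hϖ.ne_zero (hinj (by rw [h, map_zero]))
  have hp : (Ideal.span {ϖ}).IsPrime := (Ideal.span_singleton_prime hϖ.ne_zero).2 hϖ
  have hd : Disjoint (𝔫.primeCompl : Set C) (Ideal.span {ϖ} : Set C) := by
    rw [Set.disjoint_left]
    intro x hx hx'
    exact hx ((Ideal.span_singleton_le_iff_mem _).2 hϖn hx')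
  have := IsLocalization.isPrime_of_isPrime_disjoint 𝔫.primeCompl S _ hp hd
  rw [Ideal.map_span, Set.image_singleton] at this
  exact (Ideal.span_singleton_prime h0).1 this

/-- **The base of a node** (fields `prime_q`, `max_S` of `S34.H46.NodeHyp`): for a domain `C`
with `C ⧸ (q)` a Dedekind domain, `q ≠ 0` in `C`, and a maximal ideal `𝔫 ∋ q`, the local ring
`S = C_𝔫` has `q` as a prime element and maximal ideal `(q, θ)`; moreover `θ` is the image of
an element of `𝔫`. -/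
theorem exists_nodeBase {C : Type*} [CommRing C] [IsDomain C] (q : ℕ) (hq0 : (q : C) ≠ 0)
    [IsDedekindDomain (C ⧸ Ideal.span {(q : C)})] (𝔫 : Ideal C) [h𝔫 : 𝔫.IsMaximal]
    (hq : (q : C) ∈ 𝔫) :
    Prime ((q : ℕ) : Localization.AtPrime 𝔫) ∧
      ∃ t ∈ 𝔫, maximalIdeal (Localization.AtPrime 𝔫) =
        Ideal.span {((q : ℕ) : Localization.AtPrime 𝔫),
          algebraMap C (Localization.AtPrime 𝔫) t} := by
  have hpr : Prime (q : C) := prime_of_isDomain_quotient hq0
  have h1 := prime_algebraMap_of_isLocalization hpr 𝔫 hq (Localization.AtPrime 𝔫)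
  obtain ⟨t, ht, h2⟩ := maximalIdeal_atPrime_eq_span (q : C) 𝔫 hq
  rw [map_natCast] at h1 h2
  exact ⟨h1, t, ht, h2⟩

end Fermat.Agent.S34.H78
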