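/-
S34 / Program B', L6 assembly (helper78): **the smooth chart over a DVR, as the base of a node**.

For a descended setup `DSetup A₀ O₀ x` over a characteristic-zero discrete valuation ring `A₀`
with uniformiser `ϖ` (S18 core 2), the chart `C = chart A₀ x` (integral closure of `A₀[x]`):
* `chart_dedekind_of_dsetup` : `C ⧸ ϖ C` is a Dedekind domain (Theorem D; this is the first half
  of the proof of `S18.H19.dvr_core`, exported as a statement);
* `chart_isNoetherianRing`, `chart_prime_unif` : `C` is noetherian and `ϖ` is a prime element;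
* `chart_nodeBase` : at every maximal ideal `𝔫 ∋ ϖ` the local ring `C_𝔫` has `ϖ` as a prime
  element and maximal ideal `(ϖ, t)`;
* `chart_nodeBase_natCast` : the same with `ϖ = q` a natural number (the unramified base), in the
  exact shape of the fields `prime_q`, `max_S` of `S34.H46.NodeHyp`.
-/
import Fermat.Agent.S18.H19.Core2
import Fermat.Agent.S34.H78.RegParam

set_option autoImplicit false
set_option linter.style.haveILetI false
set_option linter.unusedSectionVars false

open Polynomial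

noncomputable section

namespace Fermat.Agent.S34.H78

open Fermat.Agent.S18 Fermat.Agent.S18.H19

variable {A₀ : Type*} [CommRing A₀] [IsDomain A₀] [IsDiscreteValuationRing A₀] [CharZero A₀]
  {F₀ : Type*} [Field F₀] [Algebra A₀ F₀] [FaithfulSMul A₀ F₀]

/-- **Theorem D for a descended setup**: the special fibre of the chart is a Dedekind domain. -/
theorem chart_dedekind_of_dsetup (ϖ : A₀) (hϖ : Irreducible ϖ) (O₀ : ValuationSubring F₀)
    (x : F₀) (hS : DSetup A₀ O₀ x) :
    IsDedekindDomain (↥(chart A₀ x) ⧸ Ideal.span {algebraMap A₀ ↥(chart A₀ x) ϖ}) := by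
  have := H95.chart_isIntegrallyClosed' (A₀ := A₀) x
  obtain ⟨S, hSu, hram⟩ := H50.chart_ram ϖ hϖ O₀ x hS
  exact theoremD_chart ϖ hϖ x hS.transc hS.finite (chart_prime ϖ hϖ O₀ x hS).1
    (chart_prime ϖ hϖ O₀ x hS).2 (H6.chart_sep ϖ hϖ O₀ x hS) S hSu hram

/-- The chart is a noetherian ring. -/
theorem chart_isNoetherianRing (O₀ : ValuationSubring F₀) (x : F₀) (hS : DSetup A₀ O₀ x) :
    IsNoetherianRing ↥(chart A₀ x) := by
  letI algC : Algebra A₀[X] ↥(chart A₀ x) := H95.chartAlgebra (A₀ := A₀) x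
  haveI hfinC : Module.Finite A₀[X] ↥(chart A₀ x) := H95.chart_finite_sub x hS.transc hS.finite
  exact IsNoetherianRing.of_finite A₀[X] ↥(chart A₀ x)

/-- The uniformiser is nonzero in the chart. -/
theorem chart_unif_ne_zero (ϖ : A₀) (hϖ : Irreducible ϖ) (x : F₀) :
    algebraMap A₀ ↥(chart A₀ x) ϖ ≠ 0 := by
  intro h
  have h1 : algebraMap A₀ F₀ ϖ = 0 := by
    have := congrArg (fun c : ↥(chart A₀ x) => (c : F₀)) h
    simpa using this
  exact hϖ.ne_zero ((FaithfulSMul.algebraMap_injective A₀ F₀) (by rw [h1, map_zero]))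

/-- The uniformiser is a prime element of the chart. -/
theorem chart_prime_unif (ϖ : A₀) (hϖ : Irreducible ϖ) (O₀ : ValuationSubring F₀)
    (x : F₀) (hS : DSetup A₀ O₀ x) : Prime (algebraMap A₀ ↥(chart A₀ x) ϖ) := by
  haveI := chart_dedekind_of_dsetup ϖ hϖ O₀ x hS
  exact prime_of_isDomain_quotient (chart_unif_ne_zero ϖ hϖ x)

/-- **The base of a node**: at a closed point `𝔫` of the special fibre of the chart, the local
ring has `ϖ` as a prime element and maximal ideal `(ϖ, t)`. -/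
theorem chart_nodeBase (ϖ : A₀) (hϖ : Irreducible ϖ) (O₀ : ValuationSubring F₀)
    (x : F₀) (hS : DSetup A₀ O₀ x) (𝔫 : Ideal ↥(chart A₀ x)) [h𝔫 : 𝔫.IsMaximal]
    (hϖn : algebraMap A₀ ↥(chart A₀ x) ϖ ∈ 𝔫) :
    Prime (algebraMap ↥(chart A₀ x) (Localization.AtPrime 𝔫)
        (algebraMap A₀ ↥(chart A₀ x) ϖ)) ∧
      ∃ t ∈ 𝔫, IsLocalRing.maximalIdeal (Localization.AtPrime 𝔫) =
        Ideal.span {algebraMap ↥(chart A₀ x) (Localization.AtPrime 𝔫)
            (algebraMap A₀ ↥(chart A₀ x) ϖ),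
          algebraMap ↥(chart A₀ x) (Localization.AtPrime 𝔫) t} := by
  haveI := chart_dedekind_of_dsetup ϖ hϖ O₀ x hS
  exact ⟨prime_algebraMap_of_isLocalization (chart_prime_unif ϖ hϖ O₀ x hS) 𝔫 hϖn _,
    maximalIdeal_atPrime_eq_span _ 𝔫 hϖn⟩

/-- The same over a base in which a natural number `q` is a uniformiser (an unramified base):
the fields `prime_q` and `max_S` of `S34.H46.NodeHyp` for `S = (chart A₀ x)_𝔫`. -/
theorem chart_nodeBase_natCast (q : ℕ) (hq : Irreducible ((q : ℕ) : A₀))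
    (O₀ : ValuationSubring F₀) (x : F₀) (hS : DSetup A₀ O₀ x) (𝔫 : Ideal ↥(chart A₀ x))
    [h𝔫 : 𝔫.IsMaximal] (hqn : ((q : ℕ) : ↥(chart A₀ x)) ∈ 𝔫) :
    Prime ((q : ℕ) : Localization.AtPrime 𝔫) ∧
      ∃ t ∈ 𝔫, IsLocalRing.maximalIdeal (Localization.AtPrime 𝔫) =
        Ideal.span {((q : ℕ) : Localization.AtPrime 𝔫),
          algebraMap ↥(chart A₀ x) (Localization.AtPrime 𝔫) t} := by
  have hqn' : algebraMap A₀ ↥(chart A₀ x) ((q : ℕ) : A₀) ∈ 𝔫 := by
    rw [map_natCast]
    exact hqn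
  obtain ⟨h1, t, ht, h2⟩ := chart_nodeBase ((q : ℕ) : A₀) hq O₀ x hS 𝔫 hqn'
  rw [map_natCast, map_natCast] at h1 h2
  exact ⟨h1, t, ht, h2⟩

/-- The local ring of the chart at a prime is a noetherian domain. -/
theorem chart_atPrime_isNoetherianRing (O₀ : ValuationSubring F₀) (x : F₀)
    (hS : DSetup A₀ O₀ x) (𝔫 : Ideal ↥(chart A₀ x)) [h𝔫 : 𝔫.IsPrime] :
    IsNoetherianRing (Localization.AtPrime 𝔫) := by
  haveI := chart_isNoetherianRing O₀ x hS
  exact IsLocalization.isNoetherianRing 𝔫.primeCompl _ inferInstance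

end Fermat.Agent.S34.H78
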