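/-
S34 / Program B', leaf L6-(U3) (helper78): **descent of the Setup with the orthonormal basis as a
parameter**.

The landed `S18.H8.exists_descent` produces a `DSetup` over `A ∩ K₀` for SOME number field `K₀`
(it picks the orthonormal basis `θ` and the field of definition by `Classical.choose`).  For the
semistable programme one needs the same statement for a GIVEN basis `θ` and for EVERY field
`K₀` over which the structure constants of `θ` are rational (e.g. `K₀ = ℚ`, base `ℤ_(q)`, an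
unramified base), and compatibly for all larger fields.

* `mem_adjoin_simple_of_le`, `span_adjoin_mono` : `K₀₀(x) ⊆ K₀(x)` and monotonicity of the
  `K(x)`-span of `θ` in the constant field;
* `goodPair_over` (U3a) : if `1` and the products `θ i * θ j` lie in the `K₀₀(x)`-span of `θ`,
  then for every `K₀ ⊇ K₀₀` the `K₀(x)`-span of `θ` is an intermediate field `F₀` and
  `(K₀, F₀)` is a good pair;
* `dsetup_of_goodPair`, `dsetup_inv_of_goodPair` (U3b) : `DSetup (A ∩ K₀) (O ∩ F₀) x` (and for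
  `x⁻¹`) for every good pair, given the branch clause;
* `exists_descent_large` (U3c) : for all sufficiently large `K₀ ⊇ K₀₀` the good pair of (U3a)
  satisfies `DSetup` for `x` and `x⁻¹` and the divisibility clause of `exists_descent`.
-/
import Mathlib
import Fermat.Agent.S18.H8.Descent

set_option autoImplicit false

open AlgebraicCurve IntermediateField Polynomial

noncomputable section

namespace Fermat.Agent.S34.H78

open Fermat.Agent.S18.H74 Fermat.Agent.S18.H19 Fermat.Agent.S18.H8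

section Good

variable {k K : Type*} [Field k] [Field K] [Algebra k K] {F : Type*} [Field F] [Algebra K F]

/-- `K₀₀(x) ⊆ K₀(x)` inside `F`. -/
theorem mem_adjoin_simple_of_le {K00 K0 : IntermediateField k K} (hle : K00 ≤ K0) (x : F) {r : F}
    (hr : r ∈ K00⟮x⟯) : r ∈ K0⟮x⟯ := by
  obtain ⟨P, Q, hPQ⟩ := (IntermediateField.mem_adjoin_simple_iff K00 r).1 hr
  rw [IntermediateField.mem_adjoin_simple_iff]
  have key : ∀ p : (↥K00)[X],
      aeval x (p.map (IntermediateField.inclusion hle).toRingHom) = aeval x p := by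
    intro p
    rw [Polynomial.aeval_def, Polynomial.eval₂_map, Polynomial.aeval_def]
    rfl
  exact ⟨P.map (IntermediateField.inclusion hle).toRingHom,
    Q.map (IntermediateField.inclusion hle).toRingHom, by rw [key, key, hPQ]⟩

/-- The `K₀₀(x)`-span of `θ` is contained in the `K₀(x)`-span. -/
theorem span_adjoin_mono {K00 K0 : IntermediateField k K} (hle : K00 ≤ K0) (x : F) {μ : ℕ}
    (θ : Fin μ → F) {f : F} (hf : f ∈ Submodule.span K00⟮x⟯ (Set.range θ)) :
    f ∈ Submodule.span K0⟮x⟯ (Set.range θ) := by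
  obtain ⟨c, rfl⟩ := (Submodule.mem_span_range_iff_exists_fun K00⟮x⟯).1 hf
  refine Submodule.sum_mem _ fun i _ => ?_
  have hi : ((c i : K00⟮x⟯) : F) ∈ K0⟮x⟯ := mem_adjoin_simple_of_le hle x (c i).2
  have : c i • θ i = (⟨((c i : K00⟮x⟯) : F), hi⟩ : K0⟮x⟯) • θ i := rfl
  rw [this]
  exact Submodule.smul_mem _ _ (Submodule.subset_span ⟨i, rfl⟩)

/-- In a good pair every element of `F₀` lies in the `K₀(x)`-span of `θ`. -/
theorem mem_span_of_goodPair {x : F} {K0 : IntermediateField k K} {F0 : IntermediateField K0 F}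
    {μ : ℕ} {θ : Fin μ → F} (hG : GoodPair x K0 F0 θ) {f : F} (hf : f ∈ F0) :
    f ∈ Submodule.span K0⟮x⟯ (Set.range θ) := by
  obtain ⟨r, rfl⟩ := hG.coord f hf
  refine Submodule.sum_mem _ fun i _ => ?_
  have : ((r i : K0⟮x⟯) : F) * θ i = r i • θ i := rfl
  rw [this]
  exact Submodule.smul_mem _ _ (Submodule.subset_span ⟨i, rfl⟩)

/-- **(U3a)**  If `1` and the products `θ i * θ j` lie in the `K₀₀(x)`-span of `θ`, then for
every `K₀ ⊇ K₀₀` the `K₀(x)`-span of `θ` is (the carrier of) an intermediate field `F₀` of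
`F / K₀`, and `(K₀, F₀)` is a good pair for `(x, θ)`. -/
theorem goodPair_over (x : F) {μ : ℕ} (θ : Fin μ → F) (K00 : IntermediateField k K)
    (h1 : (1 : F) ∈ Submodule.span K00⟮x⟯ (Set.range θ))
    (hmul : ∀ i j, θ i * θ j ∈ Submodule.span K00⟮x⟯ (Set.range θ))
    (K0 : IntermediateField k K) (hle : K00 ≤ K0) :
    ∃ F0 : IntermediateField K0 F, GoodPair x K0 F0 θ ∧
      ∀ f : F, f ∈ F0 ↔ f ∈ Submodule.span K0⟮x⟯ (Set.range θ) := by
  obtain ⟨F₀', hF₀'⟩ := exists_intermediateField_of_span (E₀ := K0⟮x⟯) θ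
    (span_adjoin_mono hle x θ h1) (fun i j => span_adjoin_mono hle x θ (hmul i j))
  refine ⟨F₀'.restrictScalars K0, ⟨?_, ?_, ?_⟩, fun f => hF₀' f⟩
  · exact F₀'.algebraMap_mem (⟨x, IntermediateField.mem_adjoin_simple_self K0 x⟩ : K0⟮x⟯)
  · intro i
    exact (hF₀' (θ i)).2 (Submodule.subset_span ⟨i, rfl⟩)
  · intro f hf
    obtain ⟨c, hc⟩ := (Submodule.mem_span_range_iff_exists_fun K0⟮x⟯).1 ((hF₀' f).1 hf)
    exact ⟨c, hc.symm⟩

/-- Two good pairs over `K₀₀ ≤ K₀` for the same `θ`, the upper one being the full span: the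
lower field is contained in the upper one. -/
theorem goodPair_le {x : F} {μ : ℕ} {θ : Fin μ → F} {K00 K0 : IntermediateField k K}
    (hle : K00 ≤ K0) {F00 : IntermediateField K00 F} (hG00 : GoodPair x K00 F00 θ)
    {F0 : IntermediateField K0 F}
    (hF0 : ∀ f : F, f ∈ F0 ↔ f ∈ Submodule.span K0⟮x⟯ (Set.range θ)) {f : F} (hf : f ∈ F00) :
    f ∈ F0 :=
  (hF0 f).2 (span_adjoin_mono hle x θ (mem_span_of_goodPair hG00 hf))

end Good

/-! ### The descended setup for a given good pair -/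

local notation "Qb" => AlgebraicClosure ℚ

section Descent

variable (A : ValuationSubring Qb) {F : Type} [Field F] [Algebra Qb F]

/-- The `branch` clause of `H19.DSetup` for the base function `y ∈ F₀` over `A ∩ K₀`
(verbatim the shape of the conjuncts of `S18.H61.exists_places_package`). -/
def BranchAt (K₀ : IntermediateField ℚ Qb) (F₀ : IntermediateField K₀ F) (y : F₀) : Prop :=
  letI := algComap (A.comap (algebraMap K₀ Qb)) F₀
  ∃ S₀ : Finset ↥(A.comap (algebraMap K₀ Qb)),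
    (∀ a ∈ S₀, ∀ b ∈ S₀, a ≠ b → IsUnit (a - b)) ∧
    ∀ V : ValuationSubring F₀,
      (∀ a : ↥(A.comap (algebraMap K₀ Qb)), a ≠ 0 →
        (algebraMap ↥(A.comap (algebraMap K₀ Qb)) F₀ a)⁻¹ ∈ V) →
      IsDiscreteValuationRing V → y ∈ V →
      (∀ a ∈ S₀, (y - algebraMap ↥(A.comap (algebraMap K₀ Qb)) F₀ a)⁻¹ ∈ V) →
      ∃ g : (↥(A.comap (algebraMap K₀ Qb)))[X],
        aeval y g ∈ V ∧ (aeval y g)⁻¹ ∉ V ∧ ∀ t ∈ V, t⁻¹ ∉ V → t / aeval y g ∈ V

/-- The divisibility clause of `S18.H8.exists_descent` for the pair `(K₀, F₀)`. -/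
def DivClause (K₀ : IntermediateField ℚ Qb) (F₀ : IntermediateField K₀ F) : Prop :=
  letI := algComap (A.comap (algebraMap K₀ Qb)) F₀
  ∀ (p : ℕ) (u : F₀), (∀ P : Place Qb F, (p : ℤ) ∣ P.ord (u : F)) →
    ∀ V : ValuationSubring F₀,
      (∀ a : ↥(A.comap (algebraMap K₀ Qb)), a ≠ 0 →
        (algebraMap ↥(A.comap (algebraMap K₀ Qb)) F₀ a)⁻¹ ∈ V) →
      IsDiscreteValuationRing V →
      ∃ t : F₀, t ≠ 0 ∧ u / t ^ p ∈ V ∧ (u / t ^ p)⁻¹ ∈ V

variable {A}

/-- **(U3b)**  The descended setup over `A ∩ K₀` for a GIVEN orthonormal basis `θ` with unit Gram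
determinant and ANY good pair `(K₀, F₀)` for `(x, θ)` (no finiteness of `K₀ / ℚ` is needed),
given the branch clause for `x`. -/
theorem dsetup_of_goodPair (hA : A ≠ ⊤) (O : ValuationSubring F) (x : F)
    (hx : Transcendental Qb x) (hS : Setup Qb A F O x)
    (θ : Fin (Module.finrank Qb⟮x⟯ F) → F)
    (horth : ∀ r : Fin (Module.finrank Qb⟮x⟯ F) → Qb⟮x⟯,
      (∑ i, (r i : F) * θ i) ∈ O ↔ ∀ i, (r i : F) ∈ O)
    (hgram : ((gramDet Qb F x θ : Qb⟮x⟯) : F)⁻¹ ∈ O)
    (K₀ : IntermediateField ℚ Qb) (F₀ : IntermediateField K₀ F) (hG : GoodPair x K₀ F₀ θ)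
    (hbr : BranchAt A K₀ F₀ ⟨x, hG.x_mem⟩) :
    letI := algComap (A.comap (algebraMap K₀ Qb)) F₀
    DSetup ↥(A.comap (algebraMap K₀ Qb)) (O.comap (algebraMap F₀ F)) (⟨x, hG.x_mem⟩ : F₀) := by
  classical
  have hD0 := Fermat.Agent.S18.H80.resData_of_setup hA hS θ horth hgram
  let _ := algComap (A.comap (algebraMap K₀ Qb)) F₀
  exact
    { mem_iff := Fermat.Agent.S18.H21.dsetup_mem_iff A O K₀ F₀ hS.mem_iff
      gauss := Fermat.Agent.S18.H21.dsetup_gauss A O K₀ F₀ x hG.x_mem hS.gauss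
      scale := Fermat.Agent.S18.H67.dsetup_scale A O K₀ F₀ x hA hS θ horth hgram hG
      transc := Fermat.Agent.S18.H21.dsetup_transc A K₀ F₀ x hG.x_mem hx
      finite := (Fermat.Agent.S18.H78.dsetup_finite_basis A O K₀ F₀ x hG.x_mem hA hS θ horth
        hgram hG).1
      basis := (Fermat.Agent.S18.H78.dsetup_finite_basis A O K₀ F₀ x hG.x_mem hA hS θ horth
        hgram hG).2
      branch := hbr
      const := Fermat.Agent.S18.H67.dsetup_const A O K₀ F₀ x hA hS θ horth hgram hG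
      const₀ := Fermat.Agent.S18.H72.dsetup_const₀ A O hD0 K₀ F₀
        (fun f => ratCoord_of_goodPair A O K₀ F₀ x hD0 hG (f : F) f.2) }

/-- **(U3b')**  The same for the base function `x⁻¹` (the chart at infinity). -/
theorem dsetup_inv_of_goodPair (hA : A ≠ ⊤) (O : ValuationSubring F) (x : F)
    (hx : Transcendental Qb x) (hS : Setup Qb A F O x)
    (θ : Fin (Module.finrank Qb⟮x⟯ F) → F)
    (horth : ∀ r : Fin (Module.finrank Qb⟮x⟯ F) → Qb⟮x⟯,
      (∑ i, (r i : F) * θ i) ∈ O ↔ ∀ i, (r i : F) ∈ O)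
    (hgram : ((gramDet Qb F x θ : Qb⟮x⟯) : F)⁻¹ ∈ O)
    (K₀ : IntermediateField ℚ Qb) (F₀ : IntermediateField K₀ F) (hG : GoodPair x K₀ F₀ θ)
    (hbr : BranchAt A K₀ F₀ ⟨x, hG.x_mem⟩) (hbr' : BranchAt A K₀ F₀ (⟨x, hG.x_mem⟩ : F₀)⁻¹) :
    letI := algComap (A.comap (algebraMap K₀ Qb)) F₀
    DSetup ↥(A.comap (algebraMap K₀ Qb)) (O.comap (algebraMap F₀ F)) (⟨x, hG.x_mem⟩ : F₀)⁻¹ := by
  let _ := algComap (A.comap (algebraMap K₀ Qb)) F₀
  have hD := dsetup_of_goodPair hA O x hx hS θ horth hgram K₀ F₀ hG hbr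
  exact Fermat.Agent.S18.H78.dsetup_inv _ _ hD hbr'

/-- **(U3c)**  Descent for every sufficiently large constant field, with the basis as a
parameter: if the structure constants of `θ` are rational over `K₀₀`, there is a finite set
`Z ⊆ ℚ̄` such that for EVERY intermediate field `K₀ ⊇ K₀₀ ∪ Z` the `K₀(x)`-span `F₀` of `θ`
(a good pair, by `goodPair_over`) contains the given finite set `T'` and carries the descended
setup for `x` and `x⁻¹` together with the divisibility clause of `exists_descent`. -/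
theorem exists_descent_large (hA : A ≠ ⊤) (O : ValuationSubring F) (x : F)
    (hx : Transcendental Qb x) (hS : Setup Qb A F O x)
    (θ : Fin (Module.finrank Qb⟮x⟯ F) → F)
    (horth : ∀ r : Fin (Module.finrank Qb⟮x⟯ F) → Qb⟮x⟯,
      (∑ i, (r i : F) * θ i) ∈ O ↔ ∀ i, (r i : F) ∈ O)
    (hgram : ((gramDet Qb F x θ : Qb⟮x⟯) : F)⁻¹ ∈ O) (T' : Finset F) :
    ∃ Z : Finset Qb, ∀ (K₀ : IntermediateField ℚ Qb), (∀ z ∈ Z, z ∈ K₀) →
      ∀ (F₀ : IntermediateField K₀ F) (hG : GoodPair x K₀ F₀ θ),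
        (∀ f : F, f ∈ F₀ ↔ f ∈ Submodule.span K₀⟮x⟯ (Set.range θ)) →
        (∀ t ∈ T', t ∈ F₀) ∧
        (letI := algComap (A.comap (algebraMap K₀ Qb)) F₀
         DSetup ↥(A.comap (algebraMap K₀ Qb)) (O.comap (algebraMap F₀ F)) (⟨x, hG.x_mem⟩ : F₀)) ∧
        (letI := algComap (A.comap (algebraMap K₀ Qb)) F₀
         DSetup ↥(A.comap (algebraMap K₀ Qb)) (O.comap (algebraMap F₀ F))
          (⟨x, hG.x_mem⟩ : F₀)⁻¹) ∧
        DivClause A K₀ F₀ := by
  classical
  have hfin : FiniteDimensional Qb⟮x⟯ F := hS.finite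
  have halg : Algebra.IsAlgebraic ℚ Qb := AlgebraicClosure.isAlgebraic ℚ
  have hD0 := Fermat.Agent.S18.H80.resData_of_setup hA hS θ horth hgram
  have hθ : ∀ f : F, ∃ r : Fin (Module.finrank Qb⟮x⟯ F) → Qb⟮x⟯, f = ∑ i, (r i : F) * θ i :=
    fun f => ⟨fun i => hD0.basisF.repr f i, (hD0.sum_repr f).symm⟩
  obtain ⟨S₁, T, hpl⟩ := Fermat.Agent.S18.H61.exists_places_package (k := ℚ) A x hx
    hS.branch hS.branch_inv
  obtain ⟨W, hW⟩ := exists_finset_forall_mem_span (k := ℚ) x θ hθ (T ∪ T')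
  refine ⟨S₁ ∪ W, fun K₀ hZ F₀ hG hF₀ => ?_⟩
  have hS₁ : ∀ c ∈ S₁, c ∈ K₀ := fun c hc => hZ c (Finset.mem_union_left _ hc)
  have hspan := hW K₀ (fun w hw => hZ w (Finset.mem_union_right _ hw))
  have hT : ∀ t ∈ T, t ∈ F₀ := fun t ht => (hF₀ t).2 (hspan t (Finset.mem_union_left _ ht))
  have hT' : ∀ t ∈ T', t ∈ F₀ := fun t ht => (hF₀ t).2 (hspan t (Finset.mem_union_right _ ht))
  obtain ⟨hbr, hbr', hdiv⟩ := hpl K₀ F₀ hG.x_mem hS₁ hT
  exact ⟨hT', dsetup_of_goodPair hA O x hx hS θ horth hgram K₀ F₀ hG hbr,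
    dsetup_inv_of_goodPair hA O x hx hS θ horth hgram K₀ F₀ hG hbr hbr', hdiv⟩

/-- `A ∩ K₀` is a discrete valuation ring for every number field `K₀` (landed in S18; restated
here for the convenience of the consumers of (U3)). -/
theorem isDVR_comap (hA : A ≠ ⊤) (K₀ : IntermediateField ℚ Qb) [FiniteDimensional ℚ K₀] :
    IsDiscreteValuationRing ↥(A.comap (algebraMap K₀ Qb)) :=
  Fermat.Agent.S18.H21.isDiscreteValuationRing_comap_qbar A hA K₀

end Descent

end Fermat.Agent.S34.H78
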