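/-
S34 / Program B', leaf L6-(U3) complement (helper78): **the base `A ∩ ℚ` is unramified**.

For a valuation subring `A` of `ℚ̄` lying over the prime `q`, the ring `A ∩ K₀` for the bottom
intermediate field `K₀ = ⊥` (`= ℚ`) is a discrete valuation ring with uniformiser `q`
(it is `ℤ_(q)`): `irreducible_natCast_comap_bot`, `maximalIdeal_comap_bot`.
Together with `DescentParam.lean` (descent to EVERY `K₀` over which a given basis is rational)
this gives the descended setup over a base in which `q` is a uniformiser.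
-/
import Mathlib
import Fermat.Prelude.Def_FLTPrelim_Ramification
import Fermat.Agent.S18.H21.ComapDVR

set_option autoImplicit false

open IntermediateField

noncomputable section

namespace Fermat.Agent.S34.H78

local notation "Qb" => AlgebraicClosure ℚ

variable (A : ValuationSubring Qb) {q : ℕ}

/-- Integers have valuation `≤ 1`. -/
theorem valuation_intCast_le_one (m : ℤ) : A.valuation (m : Qb) ≤ 1 :=
  (A.valuation_le_one_iff _).2 (intCast_mem A m)

/-- An integer prime to `q` is a unit of `A`. -/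
theorem valuation_intCast_eq_one (hq : q.Prime) (hA : A.LiesOverPrime q) {m : ℤ}
    (hm : ¬ (q : ℤ) ∣ m) : A.valuation (m : Qb) = 1 := by
  by_contra hne
  have hlt : A.valuation (m : Qb) < 1 := lt_of_le_of_ne (valuation_intCast_le_one A m) hne
  have hqlt : A.valuation ((q : ℕ) : Qb) < 1 := (A.mem_nonunits_iff).1 hA
  have hcop : IsCoprime (q : ℤ) m :=
    ((Nat.prime_iff_prime_int.1 hq).irreducible.coprime_iff_not_dvd).2 hm
  obtain ⟨a, b, hab⟩ := hcop
  have h1 : ((a : Qb)) * ((q : ℕ) : Qb) + (b : Qb) * (m : Qb) = 1 := by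
    have := congrArg (fun z : ℤ => (z : Qb)) hab
    simpa using this
  have h2 : A.valuation ((a : Qb) * ((q : ℕ) : Qb)) < 1 := by
    rw [map_mul]
    calc A.valuation (a : Qb) * A.valuation ((q : ℕ) : Qb)
        ≤ 1 * A.valuation ((q : ℕ) : Qb) :=
          mul_le_mul' (valuation_intCast_le_one A a) le_rfl
      _ = A.valuation ((q : ℕ) : Qb) := one_mul _
      _ < 1 := hqlt
  have h3 : A.valuation ((b : Qb) * (m : Qb)) < 1 := by
    rw [map_mul]
    calc A.valuation (b : Qb) * A.valuation (m : Qb)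
        ≤ 1 * A.valuation (m : Qb) := mul_le_mul' (valuation_intCast_le_one A b) le_rfl
      _ = A.valuation (m : Qb) := one_mul _
      _ < 1 := hlt
  have h4 : A.valuation (1 : Qb) < 1 := by
    rw [← h1]
    exact lt_of_le_of_lt (A.valuation.map_add _ _) (max_lt h2 h3)
  rw [map_one] at h4
  exact lt_irrefl _ h4

/-- **The maximal ideal of `A ∩ ℚ` is generated by `q`.** -/
theorem maximalIdeal_comap_bot (hq : q.Prime) (hA : A.LiesOverPrime q) :
    IsLocalRing.maximalIdeal ↥(A.comap (algebraMap (⊥ : IntermediateField ℚ Qb) Qb)) =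
      Ideal.span {((q : ℕ) : ↥(A.comap (algebraMap (⊥ : IntermediateField ℚ Qb) Qb)))} := by
  set B := A.comap (algebraMap (⊥ : IntermediateField ℚ Qb) Qb) with hB
  have hqlt : A.valuation ((q : ℕ) : Qb) < 1 := (A.mem_nonunits_iff).1 hA
  -- nonunits of `B` are the elements whose image is a nonunit of `A`
  have hnon : ∀ b : (⊥ : IntermediateField ℚ Qb), b ∈ B.nonunits →
      A.valuation ((b : (⊥ : IntermediateField ℚ Qb)) : Qb) < 1 := by
    intro b hb
    rw [ValuationSubring.mem_nonunits_iff_or] at hb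
    rw [← A.mem_nonunits_iff, ValuationSubring.mem_nonunits_iff_or]
    rcases hb with h | h
    · left
      rw [h]
      rfl
    · right
      intro hmem
      apply h
      rw [hB, ValuationSubring.mem_comap]
      have : algebraMap (⊥ : IntermediateField ℚ Qb) Qb b⁻¹ =
          ((b : (⊥ : IntermediateField ℚ Qb)) : Qb)⁻¹ := by
        rw [map_inv₀]
        rfl
      rw [this]
      exact hmem
  apply le_antisymm
  · intro a ha
    have ha' : ((a : (⊥ : IntermediateField ℚ Qb))) ∈ B.nonunits :=
      ValuationSubring.coe_mem_nonunits_iff.2 ha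
    have hval := hnon _ ha'
    obtain ⟨r, hr⟩ := IntermediateField.mem_bot.1 (a : (⊥ : IntermediateField ℚ Qb)).2
    -- `r = num / den`
    have hnd : algebraMap ℚ Qb r * ((r.den : ℤ) : Qb) = ((r.num : ℤ) : Qb) := by
      have h0 : r * (r.den : ℚ) = (r.num : ℚ) := Rat.mul_den_eq_num r
      have h00 : algebraMap ℚ Qb r * algebraMap ℚ Qb ((r.den : ℕ) : ℚ) =
          algebraMap ℚ Qb ((r.num : ℤ) : ℚ) := by rw [← map_mul, h0]
      rw [map_natCast, map_intCast] at h00
      rw [Int.cast_natCast]
      exact h00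
    have hvnum : A.valuation ((r.num : ℤ) : Qb) < 1 := by
      rw [← hnd, map_mul, hr]
      calc A.valuation ((a : (⊥ : IntermediateField ℚ Qb)) : Qb) *
            A.valuation (((r.den : ℤ)) : Qb)
          ≤ A.valuation ((a : (⊥ : IntermediateField ℚ Qb)) : Qb) * 1 :=
            mul_le_mul' le_rfl (valuation_intCast_le_one A _)
        _ = A.valuation ((a : (⊥ : IntermediateField ℚ Qb)) : Qb) := mul_one _
        _ < 1 := hval
    have hdvd : (q : ℤ) ∣ r.num := by
      by_contra hndvd
      exact absurd (valuation_intCast_eq_one A hq hA hndvd) (ne_of_lt hvnum)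
    obtain ⟨n', hn'⟩ := hdvd
    have hden : ¬ (q : ℤ) ∣ (r.den : ℤ) := by
      intro hd
      have h1 : (q : ℤ) ∣ r.num := ⟨n', hn'⟩
      have hq1 : (q : ℕ) ∣ r.num.natAbs := Int.natCast_dvd.1 h1
      have hq2 : (q : ℕ) ∣ r.den := Int.natCast_dvd_natCast.1 hd
      have hcop : Nat.Coprime r.num.natAbs r.den := r.reduced
      have := Nat.dvd_gcd hq1 hq2
      rw [Nat.Coprime.gcd_eq_one hcop] at this
      exact hq.one_lt.ne' (Nat.dvd_one.1 this)
    have hvden : A.valuation (((r.den : ℤ)) : Qb) = 1 := valuation_intCast_eq_one A hq hA hden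
    -- the quotient `s = n' / den`
    set s : ℚ := (n' : ℚ) / (r.den : ℚ) with hs
    have hden0 : (r.den : ℚ) ≠ 0 := by exact_mod_cast r.den_nz
    have hrs : r = (q : ℚ) * s := by
      have h0 : r * (r.den : ℚ) = (r.num : ℚ) := Rat.mul_den_eq_num r
      have h1 : (r.num : ℚ) = (q : ℚ) * (n' : ℚ) := by exact_mod_cast congrArg (fun z : ℤ => (z : ℚ)) hn'
      rw [hs]
      field_simp
      rw [h0, h1]
    have hsden : algebraMap ℚ Qb s * ((r.den : ℤ) : Qb) = ((n' : ℤ) : Qb) := by
      have h0 : s * (r.den : ℚ) = (n' : ℚ) := by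
        rw [hs]
        field_simp
      have h00 : algebraMap ℚ Qb s * algebraMap ℚ Qb ((r.den : ℕ) : ℚ) =
          algebraMap ℚ Qb ((n' : ℤ) : ℚ) := by rw [← map_mul, h0]
      rw [map_natCast, map_intCast] at h00
      rw [Int.cast_natCast]
      exact h00
    have hvs : A.valuation (algebraMap ℚ Qb s) ≤ 1 := by
      have h0 : A.valuation (algebraMap ℚ Qb s) = A.valuation ((n' : ℤ) : Qb) := by
        rw [← hsden, map_mul, hvden, mul_one]
      rw [h0]
      exact valuation_intCast_le_one A n'
    have hsA : algebraMap ℚ Qb s ∈ A := (A.valuation_le_one_iff _).1 hvs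
    have hsB : algebraMap ℚ (⊥ : IntermediateField ℚ Qb) s ∈ B := by
      rw [hB, ValuationSubring.mem_comap]
      exact hsA
    refine Ideal.mem_span_singleton.2 ⟨⟨algebraMap ℚ (⊥ : IntermediateField ℚ Qb) s, hsB⟩, ?_⟩
    apply Subtype.ext
    apply Subtype.ext
    show ((a : (⊥ : IntermediateField ℚ Qb)) : Qb) = ((q : ℕ) : Qb) * algebraMap ℚ Qb s
    rw [← hr, hrs, map_mul]
    simp
  · rw [Ideal.span_le, Set.singleton_subset_iff]
    show ((q : ℕ) : ↥B) ∈ IsLocalRing.maximalIdeal ↥B
    rw [← ValuationSubring.coe_mem_nonunits_iff, ValuationSubring.mem_nonunits_iff_or]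
    right
    intro hmem
    rw [hB, ValuationSubring.mem_comap] at hmem
    have h1 : ((q : ℕ) : Qb)⁻¹ ∈ A := by
      have : algebraMap (⊥ : IntermediateField ℚ Qb) Qb
          ((((q : ℕ) : ↥B) : (⊥ : IntermediateField ℚ Qb)))⁻¹ = ((q : ℕ) : Qb)⁻¹ := by
        rw [map_inv₀]
        simp
      rw [this] at hmem
      exact hmem
    have h2 := (ValuationSubring.mem_nonunits_iff_or (A := A)).1 hA
    rcases h2 with h0 | h0
    · have : (q : Qb) ≠ 0 := by exact_mod_cast hq.ne_zero
      exact this h0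
    · exact h0 h1

/-- **`q` is a uniformiser of `A ∩ ℚ`.** -/
theorem irreducible_natCast_comap_bot (hq : q.Prime) (hA : A.LiesOverPrime q) (hAtop : A ≠ ⊤) :
    Irreducible ((q : ℕ) : ↥(A.comap (algebraMap (⊥ : IntermediateField ℚ Qb) Qb))) := by
  have : FiniteDimensional ℚ (⊥ : IntermediateField ℚ Qb) := inferInstance
  have : IsDiscreteValuationRing ↥(A.comap (algebraMap (⊥ : IntermediateField ℚ Qb) Qb)) :=
    Fermat.Agent.S18.H21.isDiscreteValuationRing_comap_qbar A hAtop ⊥
  rw [IsDiscreteValuationRing.irreducible_iff_uniformizer]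
  exact maximalIdeal_comap_bot A hq hA

end Fermat.Agent.S34.H78
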