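/-
S34 / Program B', L6 ASSEMBLY (helper78): **the descended setup of the smooth model of
`X₀(N')` over EVERY constant field, for one rational basis**.

Input: helper19's rational orthonormal basis `θ` (`S34.H19.exists_rat_basis_top`), the Setup for
the explicit Gauss ring (`S34.H19.setup_top`), and the branch clause over the constant field
(as a hypothesis `hbranch`, to be discharged by `S18.H61.dsetup_branch` with the rational branch
sets).  Output (`l6_of_branch`): ONE basis `θ` of rational functions such that for every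
intermediate field `K₀` of `ℚ̄ / ℚ` the `K₀(x)`-span `F₀` of `θ` is a field containing all
rational functions, and `(A ∩ K₀, gaussO ∩ F₀, x)` is a descended setup, for `x = j(q^{N'})` and
for `x⁻¹`.
`l6_top` : the same with the branch clause discharged by helper19's `dsetup_branch_top`.
`l6_chart` : for a number field `K₀` and a uniformiser `ϖ` of `A ∩ K₀` the chart (integral closure
of `(A ∩ K₀)[x]` in `F₀`) is a noetherian domain with Dedekind special fibre, and its local rings
at the closed points of the special fibre have `ϖ` as a prime element and maximal ideal `(ϖ, t)`.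
For `K₀ = ⊥` the base `A ∩ ℚ` has uniformiser `ℓ` (`UnifBot.lean`); for the inertia field of a
finite Galois extension this is helper92's (BASE).
-/
import Fermat.Agent.S34.H19.RatBasis
import Fermat.Agent.S34.H19.RatBranch
import Fermat.Agent.S18.H38.Exports
import Fermat.Agent.S34.H78.DescentParam
import Fermat.Agent.S34.H78.UnifBot
import Fermat.Agent.S34.H78.ChartBase

set_option autoImplicit false
set_option linter.style.haveILetI false
set_option linter.unusedSectionVars false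

open AlgebraicCurve IntermediateField ModularCurve

noncomputable section

namespace Fermat.Agent.S34.H78

open Fermat.Agent.S18.H74 Fermat.Agent.S18.H28 Fermat.Agent.S18 Fermat.Agent.S18.H19
  Fermat.Agent.S18.H8 Fermat.Agent.S34.H19

variable (N' : ℕ) [NeZero N'] {ℓ : ℕ} [Fact ℓ.Prime] (hℓN' : ¬ ℓ ∣ N')
  (A : ValuationSubring Kb) (hA : A.LiesOverPrime ℓ)

include hA in
/-- A valuation subring of `ℚ̄` lying over a prime is not the whole field. -/
theorem ne_top_of_liesOverPrime : A ≠ ⊤ := by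
  rintro rfl
  have h := (ValuationSubring.mem_nonunits_iff_or (A := (⊤ : ValuationSubring Kb))).1 hA
  rcases h with h | h
  · have : (ℓ : Kb) ≠ 0 := by exact_mod_cast (Fact.out : ℓ.Prime).ne_zero
    exact this h
  · exact h (ValuationSubring.mem_top _)

/-- **L6 (core)**: one rational basis `θ`, and for every constant field `K₀` the descended setup
over `A ∩ K₀` on the `K₀(x)`-span of `θ`, for `x = j(q^{N'})` and `x⁻¹` (`ℓ ≥ 5`), given the
branch clause. -/
theorem l6_of_branch (h2 : ℓ ≠ 2) (h3 : ℓ ≠ 3)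
    (hbranch : ∀ (K₀ : IntermediateField ℚ Kb) (F₀ : IntermediateField K₀ (FN N'))
      (hx : jtop N' ∈ F₀), BranchAt A K₀ F₀ ⟨jtop N', hx⟩ ∧
        BranchAt A K₀ F₀ (⟨jtop N', hx⟩ : F₀)⁻¹) :
    ∃ θ : Fin (Module.finrank Kb⟮jtop N'⟯ (FN N')) → FN N',
      (∀ i, θ i ∈ Set.range (ratEmb N')) ∧
      ∀ K₀ : IntermediateField ℚ Kb,
        ∃ (F₀ : IntermediateField K₀ (FN N')) (hG : GoodPair (jtop N') K₀ F₀ θ),
          (∀ f : FN N', f ∈ F₀ ↔ f ∈ Submodule.span K₀⟮jtop N'⟯ (Set.range θ)) ∧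
          (∀ f : ↥(modularFunctionFieldFull N'), ratEmb N' f ∈ F₀) ∧
          (letI := algComap (A.comap (algebraMap K₀ Kb)) F₀
           DSetup ↥(A.comap (algebraMap K₀ Kb))
            ((H66.gaussO A N' hA hℓN').comap (algebraMap F₀ (FN N')))
            (⟨jtop N', hG.x_mem⟩ : F₀)) ∧
          (letI := algComap (A.comap (algebraMap K₀ Kb)) F₀
           DSetup ↥(A.comap (algebraMap K₀ Kb))
            ((H66.gaussO A N' hA hℓN').comap (algebraMap F₀ (FN N')))
            (⟨jtop N', hG.x_mem⟩ : F₀)⁻¹) := by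
  have hAtop : A ≠ ⊤ := ne_top_of_liesOverPrime A hA
  have hS := setup_top N' hℓN' A hA h2 h3
  have hx : Transcendental Kb (jtop N') := H38.transcendental_of_setup hAtop hS
  obtain ⟨θ, horth, hgram, hrat, hspan, h1, hmul⟩ := exists_rat_basis_top N' hℓN' A hA
  refine ⟨θ, hrat, fun K₀ => ?_⟩
  obtain ⟨F₀, hG, hF₀⟩ := goodPair_over (k := ℚ) (jtop N') θ K₀ (h1 K₀) (hmul K₀) K₀ le_rfl
  obtain ⟨hbr, hbr'⟩ := hbranch K₀ F₀ hG.x_mem
  exact ⟨F₀, hG, hF₀, fun f => (hF₀ _).2 (hspan K₀ f),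
    dsetup_of_goodPair hAtop _ (jtop N') hx hS θ horth hgram K₀ F₀ hG hbr,
    dsetup_inv_of_goodPair hAtop _ (jtop N') hx hS θ horth hgram K₀ F₀ hG hbr hbr'⟩

/-- **L6** (`ℓ ≥ 5`): ONE basis `θ` of rational functions at level `N'` such that for EVERY
intermediate field `K₀` of `ℚ̄ / ℚ` (finite or not) the `K₀(x)`-span `F₀` of `θ` is a field
containing all rational functions and `(A ∩ K₀, gaussO ∩ F₀, x)` is a descended setup
(`S18.H19.DSetup`), for `x = j(q^{N'})` and for `x⁻¹`. -/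
theorem l6_top (h2 : ℓ ≠ 2) (h3 : ℓ ≠ 3) :
    ∃ θ : Fin (Module.finrank Kb⟮jtop N'⟯ (FN N')) → FN N',
      (∀ i, θ i ∈ Set.range (ratEmb N')) ∧
      ∀ K₀ : IntermediateField ℚ Kb,
        ∃ (F₀ : IntermediateField K₀ (FN N')) (hG : GoodPair (jtop N') K₀ F₀ θ),
          (∀ f : FN N', f ∈ F₀ ↔ f ∈ Submodule.span K₀⟮jtop N'⟯ (Set.range θ)) ∧
          (∀ f : ↥(modularFunctionFieldFull N'), ratEmb N' f ∈ F₀) ∧
          (letI := algComap (A.comap (algebraMap K₀ Kb)) F₀
           DSetup ↥(A.comap (algebraMap K₀ Kb))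
            ((H66.gaussO A N' hA hℓN').comap (algebraMap F₀ (FN N')))
            (⟨jtop N', hG.x_mem⟩ : F₀)) ∧
          (letI := algComap (A.comap (algebraMap K₀ Kb)) F₀
           DSetup ↥(A.comap (algebraMap K₀ Kb))
            ((H66.gaussO A N' hA hℓN').comap (algebraMap F₀ (FN N')))
            (⟨jtop N', hG.x_mem⟩ : F₀)⁻¹) :=
  l6_of_branch N' hℓN' A hA h2 h3
    (fun K₀ F₀ hx => dsetup_branch_top N' A hA h2 h3 K₀ F₀ hx)

/-- The scalar action of `A ∩ K₀` on a subfield `F₀ ⊇ K₀` of `F` is faithful. -/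
theorem faithfulSMul_comap {F : Type} [Field F] [Algebra Kb F] (K₀ : IntermediateField ℚ Kb)
    (F₀ : IntermediateField K₀ F) :
    letI := algComap (A.comap (algebraMap K₀ Kb)) F₀
    FaithfulSMul ↥(A.comap (algebraMap K₀ Kb)) ↥F₀ := by
  letI := algComap (A.comap (algebraMap K₀ Kb)) F₀
  rw [faithfulSMul_iff_algebraMap_injective]
  exact (algebraMap K₀ F₀).injective.comp Subtype.val_injective

/-- **The chart of a descended setup over a number field `K₀`**: for a uniformiser `ϖ` of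
`A ∩ K₀`, the chart `C` is a noetherian ring, `C ⧸ ϖ C` is a Dedekind domain, and at every maximal
ideal `𝔫 ∋ ϖ` the local ring `C_𝔫` has `ϖ` as a prime element and maximal ideal `(ϖ, t)`. -/
theorem l6_chart {F : Type} [Field F] [Algebra Kb F] (hAtop : A ≠ ⊤)
    (K₀ : IntermediateField ℚ Kb) [FiniteDimensional ℚ K₀] (F₀ : IntermediateField K₀ F)
    (O₀ : ValuationSubring F₀) (x : F₀)
    (hS : letI := algComap (A.comap (algebraMap K₀ Kb)) F₀
      DSetup ↥(A.comap (algebraMap K₀ Kb)) O₀ x)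
    (ϖ : ↥(A.comap (algebraMap K₀ Kb))) (hϖ : Irreducible ϖ) :
    letI := algComap (A.comap (algebraMap K₀ Kb)) F₀
    IsNoetherianRing ↥(chart ↥(A.comap (algebraMap K₀ Kb)) x) ∧
    IsDedekindDomain (↥(chart ↥(A.comap (algebraMap K₀ Kb)) x) ⧸
      Ideal.span {algebraMap ↥(A.comap (algebraMap K₀ Kb))
        ↥(chart ↥(A.comap (algebraMap K₀ Kb)) x) ϖ}) ∧
    ∀ (𝔫 : Ideal ↥(chart ↥(A.comap (algebraMap K₀ Kb)) x)) [𝔫.IsMaximal],
      algebraMap ↥(A.comap (algebraMap K₀ Kb)) ↥(chart ↥(A.comap (algebraMap K₀ Kb)) x) ϖ ∈ 𝔫 →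
      Prime (algebraMap ↥(chart ↥(A.comap (algebraMap K₀ Kb)) x) (Localization.AtPrime 𝔫)
          (algebraMap ↥(A.comap (algebraMap K₀ Kb))
            ↥(chart ↥(A.comap (algebraMap K₀ Kb)) x) ϖ)) ∧
        ∃ t ∈ 𝔫, IsLocalRing.maximalIdeal (Localization.AtPrime 𝔫) =
          Ideal.span {algebraMap ↥(chart ↥(A.comap (algebraMap K₀ Kb)) x)
              (Localization.AtPrime 𝔫)
              (algebraMap ↥(A.comap (algebraMap K₀ Kb))
                ↥(chart ↥(A.comap (algebraMap K₀ Kb)) x) ϖ),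
            algebraMap ↥(chart ↥(A.comap (algebraMap K₀ Kb)) x) (Localization.AtPrime 𝔫) t} := by
  letI := algComap (A.comap (algebraMap K₀ Kb)) F₀
  haveI : IsDiscreteValuationRing ↥(A.comap (algebraMap K₀ Kb)) := isDVR_comap hAtop K₀
  haveI : FaithfulSMul ↥(A.comap (algebraMap K₀ Kb)) ↥F₀ := faithfulSMul_comap A K₀ F₀
  exact ⟨chart_isNoetherianRing O₀ x hS, chart_dedekind_of_dsetup ϖ hϖ O₀ x hS,
    fun 𝔫 _ h𝔫 => chart_nodeBase ϖ hϖ O₀ x hS 𝔫 h𝔫⟩

end Fermat.Agent.S34.H78
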