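/-
S34 / Program B', L6 assembly, generic form (helper78): the statement of `L6.l6_of_branch` for an
ARBITRARY function field `F / ℚ̄`, Gauss ring `O` and base function `x` (e.g. the Hauptmodul
charts for `ℓ = 2, 3`): from a Setup, an orthonormal basis `θ` with unit Gram determinant whose
structure constants are rational over every constant field, and the branch clause, the descended
setup `DSetup (A ∩ K₀) (O ∩ F₀) x` (and for `x⁻¹`) on the `K₀(x)`-span `F₀` of `θ`, for EVERY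
intermediate field `K₀` of `ℚ̄ / ℚ`.
-/
import Fermat.Agent.S18.H38.Exports
import Fermat.Agent.S34.H78.DescentParam

set_option autoImplicit false

open AlgebraicCurve IntermediateField

noncomputable section

namespace Fermat.Agent.S34.H78

open Fermat.Agent.S18.H74 Fermat.Agent.S18 Fermat.Agent.S18.H19 Fermat.Agent.S18.H8

local notation "Qb" => AlgebraicClosure ℚ

/-- **L6, generic base function.** -/
theorem l6_generic {F : Type} [Field F] [Algebra Qb F] (A : ValuationSubring Qb) (hAtop : A ≠ ⊤)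
    (O : ValuationSubring F) (x : F) (hS : Setup Qb A F O x)
    (θ : Fin (Module.finrank Qb⟮x⟯ F) → F)
    (horth : ∀ r : Fin (Module.finrank Qb⟮x⟯ F) → Qb⟮x⟯,
      (∑ i, (r i : F) * θ i) ∈ O ↔ ∀ i, (r i : F) ∈ O)
    (hgram : ((gramDet Qb F x θ : Qb⟮x⟯) : F)⁻¹ ∈ O)
    (h1 : ∀ K₀ : IntermediateField ℚ Qb, (1 : F) ∈ Submodule.span K₀⟮x⟯ (Set.range θ))
    (hmul : ∀ (K₀ : IntermediateField ℚ Qb) (i j : Fin (Module.finrank Qb⟮x⟯ F)),
      θ i * θ j ∈ Submodule.span K₀⟮x⟯ (Set.range θ))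
    (hbranch : ∀ (K₀ : IntermediateField ℚ Qb) (F₀ : IntermediateField K₀ F) (hx : x ∈ F₀),
      BranchAt A K₀ F₀ ⟨x, hx⟩ ∧ BranchAt A K₀ F₀ (⟨x, hx⟩ : F₀)⁻¹)
    (K₀ : IntermediateField ℚ Qb) :
    ∃ (F₀ : IntermediateField K₀ F) (hG : GoodPair x K₀ F₀ θ),
      (∀ f : F, f ∈ F₀ ↔ f ∈ Submodule.span K₀⟮x⟯ (Set.range θ)) ∧
      (letI := algComap (A.comap (algebraMap K₀ Qb)) F₀
       DSetup ↥(A.comap (algebraMap K₀ Qb)) (O.comap (algebraMap F₀ F)) (⟨x, hG.x_mem⟩ : F₀)) ∧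
      (letI := algComap (A.comap (algebraMap K₀ Qb)) F₀
       DSetup ↥(A.comap (algebraMap K₀ Qb)) (O.comap (algebraMap F₀ F))
        (⟨x, hG.x_mem⟩ : F₀)⁻¹) := by
  have hx : Transcendental Qb x := H38.transcendental_of_setup hAtop hS
  obtain ⟨F₀, hG, hF₀⟩ := goodPair_over (k := ℚ) x θ K₀ (h1 K₀) (hmul K₀) K₀ le_rfl
  obtain ⟨hbr, hbr'⟩ := hbranch K₀ F₀ hG.x_mem
  exact ⟨F₀, hG, hF₀, dsetup_of_goodPair hAtop O x hx hS θ horth hgram K₀ F₀ hG hbr,
    dsetup_inv_of_goodPair hAtop O x hx hS θ horth hgram K₀ F₀ hG hbr hbr'⟩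

end Fermat.Agent.S34.H78
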