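/-
S34 / Program B', M1 (DIV) + (RAT) for the modular function fields (helper78).

`FN N = ℚ̄(X₀(N))` at ANY level `N` (in particular the bad level `N = q·M'`), `K₀ ⊆ ℚ̄` any
intermediate field, `F₀ ⊆ FN N` an intermediate field over `K₀` inside the `K₀`-form
`K₀·F_{N,ℚ} = IntermediateField.adjoin K₀ (Set.range (ratEmb N))` (helper61's `ratForm N K₀`).

* `arithmeticRingAut_ratEmb`, `arithmeticRingAut_eq_self_of_mem_adjoin` : the Galois group of
  `ℚ̄ / K₀` fixes the `K₀`-form pointwise.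
* `closure_adjoin_ratEmb_eq_top` : `K₀·F_{N,ℚ}·ℚ̄ = FN N`.
* `div_modular` (DIV): if `p^n ∣ ord_P u` at every place of `FN N`, then in every valuation
  subring `V ⊇ K₀` of the `K₀`-form, `u` is a unit times a `p^n`-th power.
* `rat_modular` (RAT): for `u ≠ 0` there is a finite set `T ⊆ FN N` such that for every
  `(K₀, F₀)` with `T ⊆ F₀ ⊆ K₀·F_{N,ℚ}`, every valuation subring `V ⊇ K₀` of `F₀` in which `u` is
  not a unit has residue field `K₀`.
-/
import Fermat.Agent.S34.H78.DivRat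
import Fermat.Agent.S34.H19.RatBasis
import Fermat.Agent.S18.H55.DegJ
import Fermat.Agent.S18.H60.DegreeJ
import Fermat.Prelude.Def_ModularCurve_ArithmeticGalois

set_option autoImplicit false

open AlgebraicCurve IntermediateField ModularCurve

noncomputable section

namespace Fermat.Agent.S34.H78

open Fermat.Agent.S18.H74 Fermat.Agent.S34.H19 Fermat.Agent.S24

/-- The arithmetic Galois action fixes the rational functions. -/
theorem arithmeticRingAut_ratEmb (N : ℕ) (σ : Kb ≃ₐ[ℚ] Kb) (f : ↥(modularFunctionFieldFull N)) :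
    arithmeticRingAut (modularFunctionFieldFull N) σ (ratEmb N f) = ratEmb N f :=
  Subtype.ext (coeffMap_coeffEmb σ _)

/-- The Galois group of `ℚ̄ / K₀` fixes the `K₀`-form `K₀·F_{N,ℚ}` pointwise. -/
theorem arithmeticRingAut_eq_self_of_mem_adjoin (N : ℕ) (K₀ : IntermediateField ℚ Kb)
    (s : Kb ≃ₐ[K₀] Kb) {f : FN N}
    (hf : f ∈ IntermediateField.adjoin K₀ (Set.range (ratEmb N))) :
    arithmeticRingAut (modularFunctionFieldFull N) (s.restrictScalars ℚ) f = f := by
  set τ := arithmeticRingAut (modularFunctionFieldFull N) (s.restrictScalars ℚ) with hτ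
  rw [← IntermediateField.mem_toSubfield, IntermediateField.adjoin_toSubfield] at hf
  induction hf using Subfield.closure_induction with
  | mem y hy =>
    rcases hy with ⟨a, rfl⟩ | ⟨g, rfl⟩
    · have h1 : algebraMap K₀ (FN N) a = algebraMap Kb (FN N) (a : Kb) := rfl
      rw [h1, hτ, arithmeticRingAut_algebraMap]
      congr 1
      exact s.commutes a
    · exact arithmeticRingAut_ratEmb N _ g
  | one => exact map_one τ
  | add x y _ _ hx hy => rw [map_add, hx, hy]
  | neg x _ hx => rw [map_neg, hx]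
  | inv x _ hx => rw [map_inv₀, hx]
  | mul x y _ _ hx hy => rw [map_mul, hx, hy]

/-- A subfield of `FN N` containing the constants and the rational functions is everything. -/
theorem mem_of_forall_ratEmb_mem (N : ℕ) (E : Subfield (FN N))
    (hK : ∀ c : Kb, algebraMap Kb (FN N) c ∈ E)
    (hrat : ∀ g : ↥(modularFunctionFieldFull N), ratEmb N g ∈ E) (y : FN N) : y ∈ E := by
  have hle : Subfield.closure
      (Set.range (algebraMap Kb (LaurentSeries Kb)) ∪
        (⇑(coeffEmb Kb) '' ((modularFunctionFieldFull N : IntermediateField ℚ (LaurentSeries ℚ)) :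
          Set (LaurentSeries ℚ)))) ≤ E.map (algebraMap (FN N) (LaurentSeries Kb)) := by
    rw [Subfield.closure_le]
    rintro z (⟨c, rfl⟩ | ⟨g, hg, rfl⟩)
    · exact ⟨algebraMap Kb (FN N) c, hK c, rfl⟩
    · exact ⟨ratEmb N ⟨g, hg⟩, hrat _, rfl⟩
  obtain ⟨y', hy', hyy'⟩ := hle (mem_laurentBaseChange_iff.mp y.2)
  have h : y' = y := Subtype.ext hyy'
  rw [← h]
  exact hy'

/-- `K₀·F_{N,ℚ}·ℚ̄ = FN N` for every `K₀`. -/
theorem closure_adjoin_ratEmb_eq_top (N : ℕ) (K₀ : IntermediateField ℚ Kb) :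
    Subfield.closure (((IntermediateField.adjoin K₀ (Set.range (ratEmb N)) :
      IntermediateField K₀ (FN N)) : Set (FN N)) ∪ Set.range (algebraMap Kb (FN N))) = ⊤ := by
  refine SetLike.ext fun y => ⟨fun _ => Subfield.mem_top y, fun _ => ?_⟩
  refine mem_of_forall_ratEmb_mem N _ (fun c => ?_) (fun g => ?_) y
  · exact Subfield.subset_closure (Or.inr ⟨c, rfl⟩)
  · exact Subfield.subset_closure (Or.inl (IntermediateField.subset_adjoin K₀ _ ⟨g, rfl⟩))

/-- **(DIV) for `X₀(N)`, any level, any constant field.** -/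
theorem div_modular (N : ℕ) [NeZero N] (K₀ : IntermediateField ℚ Kb) (m : ℕ)
    (u : ↥(IntermediateField.adjoin K₀ (Set.range (ratEmb N)) : IntermediateField K₀ (FN N)))
    (hord : ∀ P : Place Kb (FN N), (m : ℤ) ∣ P.ord (u : FN N))
    (V : ValuationSubring
      ↥(IntermediateField.adjoin K₀ (Set.range (ratEmb N)) : IntermediateField K₀ (FN N)))
    (hK : ∀ a : K₀, algebraMap K₀ _ a ∈ V) :
    ∃ t : ↥(IntermediateField.adjoin K₀ (Set.range (ratEmb N)) : IntermediateField K₀ (FN N)),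
      t ≠ 0 ∧ u / t ^ m ∈ V ∧ (u / t ^ m)⁻¹ ∈ V := by
  have : FiniteDimensional Kb⟮jgen N⟯ (FN N) := Fermat.Agent.S18.H55.finiteDimensional_jgen N
  have : Algebra.IsAlgebraic ℚ Kb := AlgebraicClosure.isAlgebraic ℚ
  have : Algebra.IsAlgebraic K₀ Kb := Algebra.IsAlgebraic.tower_top (K := ℚ) K₀
  exact div_of_closure_eq_top K₀ _ (jgen N) (closure_adjoin_ratEmb_eq_top N K₀) m u hord V hK

/-- **(RAT) for `X₀(N)`, any level.**  For `u ≠ 0` there is a finite set `T` of functions such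
that for every `K₀` and every intermediate field `F₀ ⊇ T` of the `K₀`-form `K₀·F_{N,ℚ}`, every
valuation subring `V ⊇ K₀` of `F₀` in which `u` is not a unit has residue field `K₀`. -/
theorem rat_modular (N : ℕ) [NeZero N] (u : FN N) (hu : u ≠ 0) :
    ∃ T : Finset (FN N), ∀ (K₀ : IntermediateField ℚ Kb) (F₀ : IntermediateField K₀ (FN N)),
      (∀ t ∈ T, t ∈ F₀) → F₀ ≤ IntermediateField.adjoin K₀ (Set.range (ratEmb N)) →
      ∀ V : ValuationSubring F₀, (∀ a : K₀, algebraMap K₀ F₀ a ∈ V) →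
      ∀ u₀ : F₀, (u₀ : FN N) = u → ¬ (u₀ ∈ V ∧ u₀⁻¹ ∈ V) →
        ∀ y ∈ V, ∃ a : K₀, y - algebraMap K₀ F₀ a ∈ V.nonunits := by
  have : FiniteDimensional Kb⟮jgen N⟯ (FN N) := Fermat.Agent.S18.H55.finiteDimensional_jgen N
  have halgQ : Algebra.IsAlgebraic ℚ Kb := AlgebraicClosure.isAlgebraic ℚ
  obtain ⟨T, hT⟩ := exists_finset_rat (k := ℚ) (K := Kb) (jgen N)
    (Fermat.Agent.S18.H60.transcendental_jgen N) u hu
  refine ⟨T, fun K₀ F₀ hTF hle V hK u₀ hu₀ hnu y hy => ?_⟩
  have : Algebra.IsAlgebraic K₀ Kb := Algebra.IsAlgebraic.tower_top (K := ℚ) K₀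
  refine hT K₀ F₀ hTF (fun s => ?_) V hK u₀ hu₀ hnu y hy
  refine ⟨arithmeticRingAut (modularFunctionFieldFull N) (s.restrictScalars ℚ), fun c => ?_,
    fun f hf => arithmeticRingAut_eq_self_of_mem_adjoin N K₀ s (hle hf)⟩
  rw [arithmeticRingAut_algebraMap]
  rfl

end Fermat.Agent.S34.H78
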