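/-
S34 / Program B', M1 (DIV) + (RAT) in the CONSUMER shapes (helper78), on helper61's
`ratForm N K₀` and the base ring `A₀ = A ∩ K₀` (instance `S18.H19.algComap`).

* `algebraMap_mem_of_inv_unif_mem` : a valuation subring of `F₀` containing `A₀` and `ϖ⁻¹`
  (`ϖ` a uniformiser of the discrete valuation ring `A₀ = A ∩ K₀`) contains `K₀`.
* `div_ratForm` : the body of `H30.VData.Div` for `F₀ = ratForm N K₀`, EVERY `K₀`.
* `rat_ratForm` : for `u ≠ 0` a finite `Z ⊆ ℚ̄` such that for every `K₀ ⊇ Z`: `u ∈ ratForm N K₀`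
  and the hypothesis `hrat` of `H77.crossing_hgen` holds (every horizontal valuation ring in the
  support of `u` has residue field `K₀ = Frac A₀`).
* `div_rat_ratForm` : both, packaged for the assembly.
-/
import Fermat.Agent.S34.H78.DivRatMod
import Fermat.Agent.S34.H61.TauDescent

set_option autoImplicit false
set_option linter.style.haveILetI false

open AlgebraicCurve IntermediateField ModularCurve

noncomputable section

namespace Fermat.Agent.S34.H78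

open Fermat.Agent.S18.H74 Fermat.Agent.S18.H19 Fermat.Agent.S34.H19 Fermat.Agent.S34.H61

/-- A valuation subring of `F₀ ⊇ K₀` which contains `A₀ = A ∩ K₀` and the inverse of a
uniformiser of `A₀` contains `K₀`. -/
theorem algebraMap_mem_of_inv_unif_mem {F₀ : Type*} [Field F₀] (A : ValuationSubring Kb)
    (K₀ : IntermediateField ℚ Kb) [Algebra K₀ F₀]
    [IsDiscreteValuationRing ↥(A.comap (algebraMap K₀ Kb))]
    (ϖ : ↥(A.comap (algebraMap K₀ Kb))) (hϖ : Irreducible ϖ) (V : ValuationSubring F₀)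
    (hϖV : (algebraMap K₀ F₀ (ϖ : K₀))⁻¹ ∈ V)
    (hAV : ∀ a : ↥(A.comap (algebraMap K₀ Kb)), algebraMap K₀ F₀ (a : K₀) ∈ V) (c : K₀) :
    algebraMap K₀ F₀ c ∈ V := by
  refine Fermat.Agent.S18.H61.algebraMap_mem_of_forall_inv_mem (A.comap (algebraMap K₀ Kb)) V
    (fun a ha => ?_) c
  obtain ⟨n, w, hw⟩ := IsDiscreteValuationRing.eq_unit_mul_pow_irreducible ha hϖ
  have h1 : (a : K₀) = ((w : ↥(A.comap (algebraMap K₀ Kb))) : K₀) * (ϖ : K₀) ^ n := by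
    rw [hw]; rfl
  have hw1 : ((w : ↥(A.comap (algebraMap K₀ Kb))) : K₀) *
      (((w⁻¹ : (↥(A.comap (algebraMap K₀ Kb)))ˣ) : ↥(A.comap (algebraMap K₀ Kb))) : K₀) = 1 := by
    have h2 : (w : ↥(A.comap (algebraMap K₀ Kb))) *
        ((w⁻¹ : (↥(A.comap (algebraMap K₀ Kb)))ˣ) : ↥(A.comap (algebraMap K₀ Kb))) = 1 := by
      rw [← Units.val_mul, mul_inv_cancel, Units.val_one]
    exact congrArg Subtype.val h2
  have hwinv : (((w : ↥(A.comap (algebraMap K₀ Kb))) : K₀))⁻¹ =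
      (((w⁻¹ : (↥(A.comap (algebraMap K₀ Kb)))ˣ) : ↥(A.comap (algebraMap K₀ Kb))) : K₀) :=
    inv_eq_of_mul_eq_one_right hw1
  rw [h1, map_mul, map_pow, mul_inv, ← map_inv₀, hwinv, ← inv_pow]
  exact V.mul_mem _ _ (hAV _) (pow_mem hϖV n)

variable (N : ℕ) [NeZero N]

/-- **(DIV) in the shape of `H30.VData.Div`**: base ring `A₀ = A ∩ K₀` (a discrete valuation
ring with uniformiser `ϖ`), field `F₀ = ratForm N K₀`, EVERY `K₀`. -/
theorem div_ratForm (A : ValuationSubring Kb) (K₀ : IntermediateField ℚ Kb)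
    [IsDiscreteValuationRing ↥(A.comap (algebraMap K₀ Kb))]
    (ϖ : ↥(A.comap (algebraMap K₀ Kb))) (hϖ : Irreducible ϖ) (m : ℕ) (u₀ : ↥(ratForm N K₀))
    (hord : ∀ P : Place Kb (FN N), (m : ℤ) ∣ P.ord (u₀ : FN N)) :
    letI := algComap (A.comap (algebraMap K₀ Kb)) ↥(ratForm N K₀)
    ∀ V : ValuationSubring ↥(ratForm N K₀),
      (algebraMap ↥(A.comap (algebraMap K₀ Kb)) ↥(ratForm N K₀) ϖ)⁻¹ ∈ V →
      (∀ a : ↥(A.comap (algebraMap K₀ Kb)),
        algebraMap ↥(A.comap (algebraMap K₀ Kb)) ↥(ratForm N K₀) a ∈ V) →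
      IsDiscreteValuationRing V →
      ∃ t : ↥(ratForm N K₀), t ≠ 0 ∧ u₀ / t ^ m ∈ V ∧ (u₀ / t ^ m)⁻¹ ∈ V := by
  letI := algComap (A.comap (algebraMap K₀ Kb)) ↥(ratForm N K₀)
  intro V hϖV hAV _
  exact div_modular N K₀ m u₀ hord V
    (algebraMap_mem_of_inv_unif_mem A K₀ ϖ hϖ V hϖV hAV)

/-- **(RAT) in the shape of `hrat` of `H77.crossing_hgen`**: for `u ≠ 0` there is a finite set
`Z` of constants such that for every `K₀ ⊇ Z` the function `u` lies in `ratForm N K₀`, and every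
valuation subring of `ratForm N K₀` containing `K₀` in which `u` is not a unit has residue field
`K₀ = Frac (A ∩ K₀)`, for every valuation subring `A` of `ℚ̄`. -/
theorem rat_ratForm (u : FN N) (hu : u ≠ 0) :
    ∃ Z : Finset Kb, ∀ K₀ : IntermediateField ℚ Kb, (∀ z ∈ Z, z ∈ K₀) →
      ∃ u₀ : ↥(ratForm N K₀), (u₀ : FN N) = u ∧ ∀ A : ValuationSubring Kb,
        letI := algComap (A.comap (algebraMap K₀ Kb)) ↥(ratForm N K₀)
        ∀ V : ValuationSubring ↥(ratForm N K₀),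
          (∀ a : ↥(A.comap (algebraMap K₀ Kb)), a ≠ 0 →
            (algebraMap ↥(A.comap (algebraMap K₀ Kb)) ↥(ratForm N K₀) a)⁻¹ ∈ V) →
          ¬ (u₀ ∈ V ∧ u₀⁻¹ ∈ V) →
          ∀ y ∈ V, ∃ a a' : ↥(A.comap (algebraMap K₀ Kb)), a' ≠ 0 ∧
            y - algebraMap ↥(A.comap (algebraMap K₀ Kb)) ↥(ratForm N K₀) a /
              algebraMap ↥(A.comap (algebraMap K₀ Kb)) ↥(ratForm N K₀) a' ∈ V.nonunits := by
  classical
  obtain ⟨T, hT⟩ := rat_modular N u hu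
  obtain ⟨Z, hZ⟩ := exists_finset_forall_mem_ratForm N (insert u T)
  refine ⟨Z, fun K₀ hK₀ => ?_⟩
  have hmem := hZ K₀ hK₀
  refine ⟨⟨u, hmem u (Finset.mem_insert_self u T)⟩, rfl, fun A => ?_⟩
  letI := algComap (A.comap (algebraMap K₀ Kb)) ↥(ratForm N K₀)
  intro V hinv hnu y hy
  have hK : ∀ c : K₀, algebraMap K₀ ↥(ratForm N K₀) c ∈ V :=
    Fermat.Agent.S18.H61.algebraMap_mem_of_forall_inv_mem (A.comap (algebraMap K₀ Kb)) V hinv
  obtain ⟨c, hc⟩ := hT K₀ (ratForm N K₀) (fun t ht => hmem t (Finset.mem_insert_of_mem ht))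
    le_rfl V hK ⟨u, hmem u (Finset.mem_insert_self u T)⟩ rfl hnu y hy
  by_cases hcA : c ∈ A.comap (algebraMap K₀ Kb)
  · refine ⟨⟨c, hcA⟩, 1, one_ne_zero, ?_⟩
    have h1 : algebraMap ↥(A.comap (algebraMap K₀ Kb)) ↥(ratForm N K₀) ⟨c, hcA⟩ /
        algebraMap ↥(A.comap (algebraMap K₀ Kb)) ↥(ratForm N K₀) 1
        = algebraMap K₀ ↥(ratForm N K₀) c := by
      rw [map_one, div_one]; rfl
    rw [h1]
    exact hc
  · have hci : c⁻¹ ∈ A.comap (algebraMap K₀ Kb) :=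
      ((A.comap (algebraMap K₀ Kb)).mem_or_inv_mem c).resolve_left hcA
    have hc0 : c ≠ 0 := fun h0 => hcA (h0 ▸ (A.comap (algebraMap K₀ Kb)).zero_mem)
    refine ⟨1, ⟨c⁻¹, hci⟩, fun h0 => inv_ne_zero hc0 (congrArg Subtype.val h0), ?_⟩
    have h1 : algebraMap ↥(A.comap (algebraMap K₀ Kb)) ↥(ratForm N K₀) 1 /
        algebraMap ↥(A.comap (algebraMap K₀ Kb)) ↥(ratForm N K₀) ⟨c⁻¹, hci⟩
        = algebraMap K₀ ↥(ratForm N K₀) c := by
      have h2 : algebraMap ↥(A.comap (algebraMap K₀ Kb)) ↥(ratForm N K₀) ⟨c⁻¹, hci⟩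
          = algebraMap K₀ ↥(ratForm N K₀) c⁻¹ := rfl
      rw [map_one, h2, map_inv₀, one_div, inv_inv]
    rw [h1]
    exact hc

/-- **(DIV) + (RAT), packaged**: for `u ≠ 0` whose divisor over `ℚ̄` is divisible by `m` there is
a finite set `Z` of constants such that over every `K₀ ⊇ Z`, `u = u₀ ∈ ratForm N K₀`, with the
`VData.Div` clause and the rationality clause for every `A` (with `A ∩ K₀` a discrete valuation
ring with uniformiser `ϖ`). -/
theorem div_rat_ratForm (m : ℕ) (u : FN N) (hu : u ≠ 0)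
    (hord : ∀ P : Place Kb (FN N), (m : ℤ) ∣ P.ord u) :
    ∃ Z : Finset Kb, ∀ K₀ : IntermediateField ℚ Kb, (∀ z ∈ Z, z ∈ K₀) →
      ∃ u₀ : ↥(ratForm N K₀), (u₀ : FN N) = u ∧ ∀ A : ValuationSubring Kb,
        letI := algComap (A.comap (algebraMap K₀ Kb)) ↥(ratForm N K₀)
        (∀ [IsDiscreteValuationRing ↥(A.comap (algebraMap K₀ Kb))]
          (ϖ : ↥(A.comap (algebraMap K₀ Kb))), Irreducible ϖ →
          ∀ V : ValuationSubring ↥(ratForm N K₀),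
            (algebraMap ↥(A.comap (algebraMap K₀ Kb)) ↥(ratForm N K₀) ϖ)⁻¹ ∈ V →
            (∀ a : ↥(A.comap (algebraMap K₀ Kb)),
              algebraMap ↥(A.comap (algebraMap K₀ Kb)) ↥(ratForm N K₀) a ∈ V) →
            IsDiscreteValuationRing V →
            ∃ t : ↥(ratForm N K₀), t ≠ 0 ∧ u₀ / t ^ m ∈ V ∧ (u₀ / t ^ m)⁻¹ ∈ V) ∧
        (∀ V : ValuationSubring ↥(ratForm N K₀),
          (∀ a : ↥(A.comap (algebraMap K₀ Kb)), a ≠ 0 →
            (algebraMap ↥(A.comap (algebraMap K₀ Kb)) ↥(ratForm N K₀) a)⁻¹ ∈ V) →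
          ¬ (u₀ ∈ V ∧ u₀⁻¹ ∈ V) →
          ∀ y ∈ V, ∃ a a' : ↥(A.comap (algebraMap K₀ Kb)), a' ≠ 0 ∧
            y - algebraMap ↥(A.comap (algebraMap K₀ Kb)) ↥(ratForm N K₀) a /
              algebraMap ↥(A.comap (algebraMap K₀ Kb)) ↥(ratForm N K₀) a' ∈ V.nonunits) := by
  obtain ⟨Z, hZ⟩ := rat_ratForm N u hu
  refine ⟨Z, fun K₀ hK₀ => ?_⟩
  obtain ⟨u₀, hu₀, hrat⟩ := hZ K₀ hK₀
  refine ⟨u₀, hu₀, fun A => ⟨?_, hrat A⟩⟩
  intro _ ϖ hϖ
  exact div_ratForm N A K₀ ϖ hϖ m u₀ (fun P => by rw [hu₀]; exact hord P)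

end Fermat.Agent.S34.H78
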