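/-
S34 / Program B', M1 (DIV) + (RAT) (helper78): **the divisor clauses of the descended function
field at ANY level** (no Setup needed, so they hold at the bad level `M = q·M'`).

Setting (as in `S18.H61.DescPlaces`, `S34.H60.ConstUnram`): `K₀ ⊆ K`, `K` algebraically closed of
characteristic zero and algebraic over `K₀`, `F/K` a function field in one variable, `F₀ ⊆ F` an
intermediate field over `K₀`.

* `div_of_closure_eq_top` (DIV): if `F = F₀·K` and `m ∣ ord_P u` at every place of `F/K`, then in
  every valuation subring `V ⊇ K₀` of `F₀` the function `u` is a unit times an `m`-th power.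
* `exists_mem_not_mem_of_ne` : two distinct places are not comparable.
* `exists_place_comap` : transport of a place by a semilinear automorphism.
* `exists_finset_rat` (RAT): for `u ≠ 0` there is a finite set `T ⊆ F` such that for every
  `(K₀, F₀)` with `T ⊆ F₀`, on which the Galois group of `K/K₀` acts semilinearly fixing `F₀`:
  every valuation subring `V ⊇ K₀` of `F₀` in which `u` is not a unit has residue field `K₀`
  (`∀ y ∈ V, ∃ a : K₀, y - a ∈ 𝔪_V`).
-/
import Mathlib
import Fermat.Prelude.Def_AlgebraicCurve_DivisorClassGroup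
import Fermat.Agent.S18.H61.DescPlaces
import Fermat.Agent.S34.H60.ConstUnram

set_option autoImplicit false

open AlgebraicCurve IntermediateField Polynomial

noncomputable section

namespace Fermat.Agent.S34.H78

section Generic

variable {k K : Type*} [Field k] [Field K] [Algebra k K] {F : Type*} [Field F] [Algebra K F]

/-- **(DIV)** at any level: if `F = F₀·K` and the divisor of `u ∈ F₀` is divisible by `m` over
`K`, then `u` is a unit times an `m`-th power in every valuation subring of `F₀` containing
`K₀`. -/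
theorem div_of_closure_eq_top (K₀ : IntermediateField k K) (F₀ : IntermediateField K₀ F)
    [Algebra.IsAlgebraic K₀ K] [CharZero K] (x : F) [FiniteDimensional K⟮x⟯ F]
    (htop : Subfield.closure ((F₀ : Set F) ∪ Set.range (algebraMap K F)) = ⊤)
    (m : ℕ) (u : F₀) (hord : ∀ P : Place K F, (m : ℤ) ∣ P.ord (u : F))
    (V : ValuationSubring F₀) (hK : ∀ a : K₀, algebraMap K₀ F₀ a ∈ V) :
    ∃ t : F₀, t ≠ 0 ∧ u / t ^ m ∈ V ∧ (u / t ^ m)⁻¹ ∈ V := by
  by_cases hV : V = ⊤
  · refine ⟨1, one_ne_zero, ?_, ?_⟩ <;> · rw [hV]; exact ValuationSubring.mem_top _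
  · exact Fermat.Agent.S18.H61.hdiv_descent K₀ F₀ x
      (Fermat.Agent.S34.H60.exists_ord_eq_one_of_closure_eq_top K₀ F₀ htop) m u hord V hK hV

/-- Two places with distinct valuation rings are incomparable: there is a function regular at
the first one with a pole at the second. -/
theorem exists_mem_not_mem_of_ne (P P' : Place K F)
    (h : P.toValuationSubring ≠ P'.toValuationSubring) :
    ∃ f : F, f ∈ P.toValuationSubring ∧ f ∉ P'.toValuationSubring := by
  by_contra hcon
  push Not at hcon
  by_cases hle : ∀ g ∈ P'.toValuationSubring, g ∈ P.toValuationSubring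
  · exact h (SetLike.ext fun f => ⟨hcon f, hle f⟩)
  · push Not at hle
    obtain ⟨g, hg', hg⟩ := hle
    have hg0 : g ≠ 0 := fun h0 => hg (h0 ▸ P.toValuationSubring.zero_mem)
    have hordg : P.ord g < 0 := by
      have := (Fermat.Agent.S24.mem_iff_ord_nonneg P hg0).not.mp hg
      omega
    apply P'.ne_top'
    refine SetLike.ext fun f => ⟨fun _ => ValuationSubring.mem_top f, fun _ => ?_⟩
    by_cases hf0 : f = 0
    · rw [hf0]; exact P'.toValuationSubring.zero_mem
    set n : ℕ := (P.ord f).natAbs with hn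
    have h1 : f * g⁻¹ ^ n ∈ P.toValuationSubring := by
      rw [Fermat.Agent.S24.mem_iff_ord_nonneg P (mul_ne_zero hf0 (pow_ne_zero n (inv_ne_zero hg0))),
        Place.ord_mul P hf0 (pow_ne_zero n (inv_ne_zero hg0)), Fermat.Agent.S24.ord_pow,
        Place.ord_inv]
      have h2 : (n : ℤ) = |P.ord f| := by rw [hn]; exact Int.natCast_natAbs _
      have h3 : (n : ℤ) ≤ (n : ℤ) * -P.ord g := by nlinarith [abs_nonneg (P.ord f)]
      have h4 := neg_abs_le (P.ord f)
      omega
    have h2 := hcon _ h1
    have h3 : f = f * g⁻¹ ^ n * g ^ n := by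
      rw [mul_assoc, ← mul_pow, inv_mul_cancel₀ hg0, one_pow, mul_one]
    rw [h3]
    exact P'.toValuationSubring.mul_mem _ _ h2 (pow_mem hg' n)

/-- Transport of a place by a field automorphism which preserves the constants. -/
theorem exists_place_comap (x : F) [FiniteDimensional K⟮x⟯ F] (σ : F ≃+* F)
    (hσ : ∀ c : K, ∃ c' : K, σ (algebraMap K F c) = algebraMap K F c') (P : Place K F) :
    ∃ P' : Place K F, ∀ f : F, f ∈ P'.toValuationSubring ↔ σ f ∈ P.toValuationSubring := by
  set W : ValuationSubring F := P.toValuationSubring.comap (σ : F →+* F) with hW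
  have hmem : ∀ f : F, f ∈ W ↔ σ f ∈ P.toValuationSubring := fun f => Iff.rfl
  have hk : ∀ a : K, algebraMap K F a ∈ W := by
    intro a
    obtain ⟨c', hc'⟩ := hσ a
    rw [hmem, hc']
    exact P.algebraMap_mem' c'
  have hWtop : W ≠ ⊤ := by
    intro h
    apply P.ne_top'
    refine SetLike.ext fun f => ⟨fun _ => ValuationSubring.mem_top f, fun _ => ?_⟩
    have h1 : σ.symm f ∈ W := by rw [h]; exact ValuationSubring.mem_top _
    rw [hmem, RingEquiv.apply_symm_apply] at h1
    exact h1
  exact ⟨Fermat.Agent.S18.H78.placeOfValuationSubring x W hk hWtop, fun f => Iff.rfl⟩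

/-- **(RAT)** at any level.  For `u ≠ 0` there is a finite set `T` of functions such that, for
every pair `(K₀, F₀)` with `T ⊆ F₀` on which the Galois group of `K / K₀` acts (semilinearly on
`F`, trivially on `F₀`), every valuation subring `V ⊇ K₀` of `F₀` in which `u` is not a unit has
residue field `K₀`. -/
theorem exists_finset_rat [IsAlgClosed K] [CharZero K] (x : F) [FiniteDimensional K⟮x⟯ F]
    (hx : Transcendental K x) (u : F) (hu : u ≠ 0) :
    ∃ T : Finset F, ∀ (K₀ : IntermediateField k K) [Algebra.IsAlgebraic K₀ K]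
      (F₀ : IntermediateField K₀ F), (∀ t ∈ T, t ∈ F₀) →
      (∀ s : K ≃ₐ[K₀] K, ∃ σ : F ≃+* F,
        (∀ c : K, σ (algebraMap K F c) = algebraMap K F (s c)) ∧ ∀ f ∈ F₀, σ f = f) →
      ∀ V : ValuationSubring F₀, (∀ a : K₀, algebraMap K₀ F₀ a ∈ V) →
      ∀ u₀ : F₀, (u₀ : F) = u → ¬ (u₀ ∈ V ∧ u₀⁻¹ ∈ V) →
        ∀ y ∈ V, ∃ a : K₀, y - algebraMap K₀ F₀ a ∈ V.nonunits := by
  classical
  have hfin : {P : Place K F | P.ord u ≠ 0}.Finite :=
    Fermat.Agent.S18.H42.finite_ord_ne_zero (K := K) x hx hu
  -- separating functions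
  let sep : Place K F → Place K F → F := fun P P' =>
    if h : P.toValuationSubring ≠ P'.toValuationSubring then
      (exists_mem_not_mem_of_ne P P' h).choose else 0
  have hsep : ∀ P P' : Place K F, P.toValuationSubring ≠ P'.toValuationSubring →
      sep P P' ∈ P.toValuationSubring ∧ sep P P' ∉ P'.toValuationSubring := by
    intro P P' h
    simp only [sep, dif_pos h]
    exact (exists_mem_not_mem_of_ne P P' h).choose_spec
  refine ⟨(hfin.toFinset ×ˢ hfin.toFinset).image (fun pp => sep pp.1 pp.2), ?_⟩
  intro K₀ _ F₀ hT hgal V hK u₀ hu₀ hnu y hy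
  have hu₀0 : u₀ ≠ 0 := by
    rintro rfl
    exact hu (by rw [← hu₀]; rfl)
  have hVtop : V ≠ ⊤ := by
    rintro rfl
    exact hnu ⟨ValuationSubring.mem_top _, ValuationSubring.mem_top _⟩
  obtain ⟨P, hP⟩ := Fermat.Agent.S18.H61.exists_place_above K₀ F₀ x V hK hVtop
  -- every place above `V` is in the support of `u`
  have hsupp : ∀ Q : Place K F, (∀ f : F₀, f ∈ V ↔ (f : F) ∈ Q.toValuationSubring) →
      Q.ord u ≠ 0 := by
    intro Q hQ h0
    apply hnu
    have h1 : (u₀ : F) ≠ 0 := by rw [hu₀]; exact hu
    refine ⟨?_, ?_⟩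
    · rw [hQ, Fermat.Agent.S24.mem_iff_ord_nonneg Q h1, hu₀, h0]
    · rw [hQ, IntermediateField.coe_inv, Fermat.Agent.S24.mem_iff_ord_nonneg Q (inv_ne_zero h1),
        Place.ord_inv, hu₀, h0, neg_zero]
  -- the place above `V` is unique
  have huniq : ∀ Q : Place K F, (∀ f : F₀, f ∈ V ↔ (f : F) ∈ Q.toValuationSubring) →
      Q.toValuationSubring = P.toValuationSubring := by
    intro Q hQ
    by_contra hne
    have hne' : P.toValuationSubring ≠ Q.toValuationSubring := fun h => hne h.symm
    obtain ⟨h1, h2⟩ := hsep P Q hne'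
    have hmemT : sep P Q ∈ (hfin.toFinset ×ˢ hfin.toFinset).image (fun pp => sep pp.1 pp.2) := by
      refine Finset.mem_image.mpr ⟨(P, Q), ?_, rfl⟩
      rw [Finset.mem_product]
      exact ⟨hfin.mem_toFinset.mpr (hsupp P hP), hfin.mem_toFinset.mpr (hsupp Q hQ)⟩
    have h3 : sep P Q ∈ F₀ := hT _ hmemT
    have h4 : (⟨sep P Q, h3⟩ : F₀) ∈ V := (hP _).mpr h1
    exact h2 ((hQ _).mp h4)
  -- the residue of `y`
  have hyP : (y : F) ∈ P.toValuationSubring := (hP y).mp hy
  have halg : Algebra.IsAlgebraic K⟮x⟯ F := Algebra.IsAlgebraic.of_finite _ _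
  obtain ⟨c, hc⟩ := Fermat.Agent.S24.exists_sub_algebraMap_ord_pos x P hyP
  -- `y - c` is a nonunit at `P` (or zero)
  have hcnu : (y : F) - algebraMap K F c ∈ P.toValuationSubring.nonunits := by
    rcases hc with hc | hc
    · rw [hc, sub_self]
      exact P.toValuationSubring.nonunits.zero_mem
    · have h0 : (y : F) - algebraMap K F c ≠ 0 := by
        intro h0
        rw [h0, Place.ord_zero] at hc
        exact lt_irrefl _ hc
      exact (Fermat.Agent.S24.H94.ord_pos_iff_mem_nonunits P h0).mp hc
  -- the residue is fixed by the Galois group of `K / K₀`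
  have hfix : ∀ s : K ≃ₐ[K₀] K, s c = c := by
    intro s
    obtain ⟨σ, hσK, hσF⟩ := hgal s
    obtain ⟨Q, hQ⟩ := exists_place_comap x σ (fun c => ⟨s c, hσK c⟩) P
    have hQV : ∀ f : F₀, f ∈ V ↔ (f : F) ∈ Q.toValuationSubring := by
      intro f
      rw [hQ, hσF _ f.2]
      exact hP f
    have hQP := huniq Q hQV
    have hσP : ∀ f : F, f ∈ P.toValuationSubring ↔ σ f ∈ P.toValuationSubring := by
      intro f
      have h := hQ f
      rw [hQP] at h
      exact h
    -- `σ` preserves the nonunits of `P`
    have h1 : σ ((y : F) - algebraMap K F c) ∈ P.toValuationSubring.nonunits := by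
      by_cases h0 : (y : F) - algebraMap K F c = 0
      · rw [h0, map_zero]
        exact P.toValuationSubring.nonunits.zero_mem
      · have h2 := ((ValuationSubring.mem_nonunits_iff_or _).mp hcnu).resolve_left h0
        have h3 : (σ ((y : F) - algebraMap K F c))⁻¹ ∉ P.toValuationSubring := by
          rw [← map_inv₀, ← hσP]
          exact h2
        exact (ValuationSubring.mem_nonunits_iff_or _).mpr (Or.inr h3)
    rw [map_sub, hσF _ y.2, hσK] at h1
    -- the difference of the two is a constant in the maximal ideal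
    have h2 : algebraMap K F (s c - c) ∈ P.toValuationSubring.nonunits := by
      have h3 : algebraMap K F (s c - c)
          = ((y : F) - algebraMap K F c) - ((y : F) - algebraMap K F (s c)) := by
        rw [map_sub]; ring
      rw [h3]
      exact P.toValuationSubring.nonunits.sub_mem hcnu h1
    by_contra hne
    have h4 : s c - c ≠ 0 := sub_ne_zero.mpr hne
    have h5 := ((ValuationSubring.mem_nonunits_iff_or _).mp h2).resolve_left
      ((_root_.map_ne_zero _).mpr h4)
    apply h5
    rw [← map_inv₀]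
    exact P.algebraMap_mem' _
  -- hence it lies in `K₀`
  have : CharZero K₀ := (algebraMap K₀ K).charZero
  have : IsAlgClosure K₀ K := ⟨inferInstance, inferInstance⟩
  have : IsGalois K₀ K := IsAlgClosure.isGalois K₀ K
  obtain ⟨a, ha⟩ := (InfiniteGalois.mem_range_algebraMap_iff_fixed (k := K₀) (K := K) c).mpr hfix
  refine ⟨a, ?_⟩
  have hcoe : ((y - algebraMap K₀ F₀ a : F₀) : F) = (y : F) - algebraMap K F c := by
    rw [← ha]; rfl
  by_cases h0 : y - algebraMap K₀ F₀ a = 0
  · rw [h0]
    exact V.nonunits.zero_mem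
  · have h0' : (y : F) - algebraMap K F c ≠ 0 := by
      rw [← hcoe]
      exact fun h => h0 (Subtype.ext h)
    have h2 := ((ValuationSubring.mem_nonunits_iff_or _).mp hcnu).resolve_left h0'
    refine (ValuationSubring.mem_nonunits_iff_or _).mpr (Or.inr ?_)
    rw [hP, IntermediateField.coe_inv, hcoe]
    exact h2

end Generic

end Fermat.Agent.S34.H78
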