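/-
S34 / Program B', L6 for the Hauptmodul charts (helper78): the descended setup of the smooth model
of `X₀(N')` over EVERY constant field, for the base functions `hauptTwo` (level `N' = 2n`, used at
`ℓ = 3`) and `hauptThree` (level `N' = 3n`, used at `ℓ = 2`).

`l6_haupt_two`, `l6_haupt_three` : the statement of `L6.l6_top` with `x = j(q^{N'})` replaced by
the Hauptmodul: ONE basis `θ` of rational functions such that for every intermediate field `K₀`
of `ℚ̄ / ℚ` the `K₀(x)`-span `F₀` of `θ` is a field containing all rational functions, and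
`(A ∩ K₀, gaussO ∩ F₀, x)`, `(A ∩ K₀, gaussO ∩ F₀, x⁻¹)` are descended setups.
Inputs: helper19's `exists_rat_basis_haupt_*`, `setup_haupt_*`, `dsetup_branch_haupt_*`
(`S34.H19.RatHaupt`) and `l6_generic`.
-/
import Fermat.Agent.S34.H19.RatHaupt
import Fermat.Agent.S34.H78.L6Generic
import Fermat.Agent.S34.H78.L6

set_option autoImplicit false
set_option linter.style.haveILetI false
set_option linter.unusedSectionVars false

open AlgebraicCurve IntermediateField ModularCurve

noncomputable section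

namespace Fermat.Agent.S34.H78

open Fermat.Agent.S18.H74 Fermat.Agent.S18.H28 Fermat.Agent.S18 Fermat.Agent.S18.H19
  Fermat.Agent.S18.H8 Fermat.Agent.S34.H19

variable (n N' : ℕ) [NeZero n] [NeZero N'] {ℓ : ℕ} [Fact ℓ.Prime] (hℓN' : ¬ ℓ ∣ N')
  (A : ValuationSubring Kb) (hA : A.LiesOverPrime ℓ)

/-- **L6 for the Hauptmodul of level two** (`N' = 2n`, `ℓ ∤ N'`; the chart used at `ℓ = 3`). -/
theorem l6_haupt_two (hN' : N' = n * 2) :
    ∃ θ : Fin (Module.finrank Kb⟮hauptTwo n N' hN'⟯ (FN N')) → FN N',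
      (∀ i, θ i ∈ Set.range (ratEmb N')) ∧
      (∀ (K₀ : IntermediateField ℚ Kb) (f : ↥(modularFunctionFieldFull N')),
        ratEmb N' f ∈ Submodule.span K₀⟮hauptTwo n N' hN'⟯ (Set.range θ)) ∧
      ∀ K₀ : IntermediateField ℚ Kb,
        ∃ (F₀ : IntermediateField K₀ (FN N')) (hG : GoodPair (hauptTwo n N' hN') K₀ F₀ θ),
          (∀ f : FN N', f ∈ F₀ ↔
            f ∈ Submodule.span K₀⟮hauptTwo n N' hN'⟯ (Set.range θ)) ∧
          (letI := algComap (A.comap (algebraMap K₀ Kb)) F₀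
           DSetup ↥(A.comap (algebraMap K₀ Kb))
            ((H66.gaussO A N' hA hℓN').comap (algebraMap F₀ (FN N')))
            (⟨hauptTwo n N' hN', hG.x_mem⟩ : F₀)) ∧
          (letI := algComap (A.comap (algebraMap K₀ Kb)) F₀
           DSetup ↥(A.comap (algebraMap K₀ Kb))
            ((H66.gaussO A N' hA hℓN').comap (algebraMap F₀ (FN N')))
            (⟨hauptTwo n N' hN', hG.x_mem⟩ : F₀)⁻¹) := by
  have hAtop : A ≠ ⊤ := Fermat.Agent.S34.H78.ne_top_of_liesOverPrime A hA
  obtain ⟨θ, horth, hgram, hrat, hspan, h1, hmul⟩ :=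
    exists_rat_basis_haupt_two n N' hN' hℓN' A hA
  refine ⟨θ, hrat, hspan, fun K₀ => ?_⟩
  exact l6_generic A hAtop (H66.gaussO A N' hA hℓN') (hauptTwo n N' hN')
    (setup_haupt_two n N' hN' hℓN' A hA) θ horth hgram h1 hmul
    (fun K₀ F₀ hx => dsetup_branch_haupt_two n N' hN' hℓN' A hA K₀ F₀ hx) K₀

/-- **L6 for the Hauptmodul of level three** (`N' = 3n`, `ℓ ∤ N'`; the chart used at `ℓ = 2`). -/
theorem l6_haupt_three (hN' : N' = n * 3) :
    ∃ θ : Fin (Module.finrank Kb⟮hauptThree n N' hN'⟯ (FN N')) → FN N',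
      (∀ i, θ i ∈ Set.range (ratEmb N')) ∧
      (∀ (K₀ : IntermediateField ℚ Kb) (f : ↥(modularFunctionFieldFull N')),
        ratEmb N' f ∈ Submodule.span K₀⟮hauptThree n N' hN'⟯ (Set.range θ)) ∧
      ∀ K₀ : IntermediateField ℚ Kb,
        ∃ (F₀ : IntermediateField K₀ (FN N')) (hG : GoodPair (hauptThree n N' hN') K₀ F₀ θ),
          (∀ f : FN N', f ∈ F₀ ↔
            f ∈ Submodule.span K₀⟮hauptThree n N' hN'⟯ (Set.range θ)) ∧
          (letI := algComap (A.comap (algebraMap K₀ Kb)) F₀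
           DSetup ↥(A.comap (algebraMap K₀ Kb))
            ((H66.gaussO A N' hA hℓN').comap (algebraMap F₀ (FN N')))
            (⟨hauptThree n N' hN', hG.x_mem⟩ : F₀)) ∧
          (letI := algComap (A.comap (algebraMap K₀ Kb)) F₀
           DSetup ↥(A.comap (algebraMap K₀ Kb))
            ((H66.gaussO A N' hA hℓN').comap (algebraMap F₀ (FN N')))
            (⟨hauptThree n N' hN', hG.x_mem⟩ : F₀)⁻¹) := by
  have hAtop : A ≠ ⊤ := Fermat.Agent.S34.H78.ne_top_of_liesOverPrime A hA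
  obtain ⟨θ, horth, hgram, hrat, hspan, h1, hmul⟩ :=
    exists_rat_basis_haupt_three n N' hN' hℓN' A hA
  refine ⟨θ, hrat, hspan, fun K₀ => ?_⟩
  exact l6_generic A hAtop (H66.gaussO A N' hA hℓN') (hauptThree n N' hN')
    (setup_haupt_three n N' hN' hℓN' A hA) θ horth hgram h1 hmul
    (fun K₀ F₀ hx => dsetup_branch_haupt_three n N' hN' hℓN' A hA K₀ F₀ hx) K₀

end Fermat.Agent.S34.H78
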