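/-
S34 / Program B' (helper78): **the leaf `H30.BaseLeaf` (L6: an admissible base function at every
good level)**, verbatim from `S34/H30/Leaves.lean`.

For a prime `q ∤ M` (with `2 ∣ M` unless `q = 2` and `3 ∣ M` unless `q = 3`) and a valuation ring
`A ∣ q` of `ℚ̄` there is a rational function `x₀ ∈ F_M` such that over EVERY constant field `K₀`
the triples `(A ∩ K₀, gaussO ∩ ratForm M K₀, x₀)` and `(…, x₀⁻¹)` are descended setups:
* `q ≥ 5` : `x₀ = j(q^M)` (`l6_top`);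
* `q = 3` : `x₀ =` the Hauptmodul of level two (`l6_haupt_two`);
* `q = 2` : `x₀ =` the Hauptmodul of level three (`l6_haupt_three`).
The field of `L6` (the `K₀(x₀)`-span of the rational basis) is `ratForm M K₀` by
`H61.eq_ratForm_of_span`.
-/
import Fermat.Agent.S34.H30.Leaves
import Fermat.Agent.S34.H78.L6
import Fermat.Agent.S34.H78.L6Haupt

set_option autoImplicit false
set_option linter.style.haveILetI false

open AlgebraicCurve IntermediateField ModularCurve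

noncomputable section

namespace Fermat.Agent.S34.H78

open Fermat.Agent.S18.H74 Fermat.Agent.S18.H28 Fermat.Agent.S18 Fermat.Agent.S18.H19
  Fermat.Agent.S18.H8 Fermat.Agent.S34.H19 Fermat.Agent.S34.H61 Fermat.Agent.S34.H30

/-- From the output of `L6` (descended setups on the `K₀(x₀)`-span of a rational basis, for every
`K₀`) to `H30.IsBase` (descended setups on `ratForm M K₀`). -/
theorem isBase_of_l6 (M q : ℕ) [NeZero M] [Fact q.Prime] (hqM : ¬ q ∣ M) (A : ValuationSubring Kb)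
    (hA : A.LiesOverPrime q) (x₀ : FN M) (hx₀ : x₀ ∈ Set.range (ratEmb M)) {μ : ℕ}
    (θ : Fin μ → FN M) (hθ : ∀ i, θ i ∈ Set.range (ratEmb M))
    (h : ∀ K₀ : IntermediateField ℚ Kb,
      ∃ (F₀ : IntermediateField K₀ (FN M)) (hx : x₀ ∈ F₀),
        (∀ f : FN M, f ∈ F₀ ↔ f ∈ Submodule.span K₀⟮x₀⟯ (Set.range θ)) ∧
        (∀ f : ↥(modularFunctionFieldFull M), ratEmb M f ∈ F₀) ∧
        (letI := algComap (A.comap (algebraMap K₀ Kb)) F₀
         DSetup ↥(A.comap (algebraMap K₀ Kb))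
          ((H66.gaussO A M hA hqM).comap (algebraMap F₀ (FN M))) (⟨x₀, hx⟩ : F₀)) ∧
        (letI := algComap (A.comap (algebraMap K₀ Kb)) F₀
         DSetup ↥(A.comap (algebraMap K₀ Kb))
          ((H66.gaussO A M hA hqM).comap (algebraMap F₀ (FN M))) (⟨x₀, hx⟩ : F₀)⁻¹)) :
    IsBase M q hqM A hA x₀ := by
  refine ⟨hx₀, fun K₀ hx => ?_⟩
  obtain ⟨F₀, hx', hiff, hmem, hS, hS'⟩ := h K₀
  have hF : F₀ = ratForm M K₀ :=
    eq_ratForm_of_span M K₀ x₀ hx₀ θ hθ (fun f => (hiff _).1 (hmem f)) F₀ hiff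
  subst hF
  exact ⟨hS, hS'⟩

/-- **Leaf (L6)**: an admissible base function exists at every good level. -/
theorem baseLeaf : BaseLeaf := by
  intro M q _ hq hqM h2 h3 A hA
  by_cases hq2 : q = 2
  · -- `q = 2`: the Hauptmodul of level three
    have h3M : 3 ∣ M := h3 (by rw [hq2]; norm_num)
    obtain ⟨n, hn⟩ := h3M
    have hM : M = n * 3 := by rw [hn, mul_comm]
    haveI : NeZero n := ⟨by
      rintro rfl
      exact NeZero.ne M (by rw [hM, zero_mul])⟩
    obtain ⟨θ, hθ, hspan, hall⟩ := l6_haupt_three n M hqM A hA hM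
    refine ⟨hauptThree n M hM, isBase_of_l6 M q hqM A hA _ ⟨hauptThreeRat n M hM, rfl⟩ θ hθ
      (fun K₀ => ?_)⟩
    obtain ⟨F₀, hG, hiff, hS, hS'⟩ := hall K₀
    exact ⟨F₀, hG.x_mem, hiff, fun f => (hiff _).2 (hspan K₀ f), hS, hS'⟩
  by_cases hq3 : q = 3
  · -- `q = 3`: the Hauptmodul of level two
    have h2M : 2 ∣ M := h2 hq2
    obtain ⟨n, hn⟩ := h2M
    have hM : M = n * 2 := by rw [hn, mul_comm]
    haveI : NeZero n := ⟨by
      rintro rfl
      exact NeZero.ne M (by rw [hM, zero_mul])⟩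
    obtain ⟨θ, hθ, hspan, hall⟩ := l6_haupt_two n M hqM A hA hM
    refine ⟨hauptTwo n M hM, isBase_of_l6 M q hqM A hA _ ⟨hauptTwoRat n M hM, rfl⟩ θ hθ
      (fun K₀ => ?_)⟩
    obtain ⟨F₀, hG, hiff, hS, hS'⟩ := hall K₀
    exact ⟨F₀, hG.x_mem, hiff, fun f => (hiff _).2 (hspan K₀ f), hS, hS'⟩
  · -- `q ≥ 5`: `j(q^M)`
    obtain ⟨θ, hθ, hall⟩ := l6_top M hqM A hA hq2 hq3
    refine ⟨jtop M, isBase_of_l6 M q hqM A hA _ ⟨jqNFull M, rfl⟩ θ hθ (fun K₀ => ?_)⟩
    obtain ⟨F₀, hG, hiff, hmem, hS, hS'⟩ := hall K₀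
    exact ⟨F₀, hG.x_mem, hiff, hmem, hS, hS'⟩

end Fermat.Agent.S34.H78
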