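/-
S34 / Program B' (helper78): **the base leaf with a CONCRETE base function**.

`H30.IsBase` (a rational function carrying the descended setup, for itself and its inverse) does
not determine the poles of the base function: it is symmetric under `x₀ ↦ x₀⁻¹`.  The point
leaves (cusps, one-component points, crossing points) need that the poles of `x₀` are cusps and
the explicit relation of `x₀` with `j(q^M)`.  So:

* `IsBaseStd` : `IsBase` together with the identity of the base function —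
  `x₀ = j(q^M)` (`q ≠ 2, 3`), the Hauptmodul of level two (`q = 3`, `M = 2n`), or the Hauptmodul
  of level three (`q = 2`, `M = 3n`);
* `BaseLeafStd` : the statement of `H30.BaseLeaf` with `IsBaseStd`;
* `baseLeafStd : BaseLeafStd`.
-/
import Fermat.Agent.S34.H78.LeafBase

set_option autoImplicit false
set_option linter.style.haveILetI false

open AlgebraicCurve IntermediateField ModularCurve

noncomputable section

namespace Fermat.Agent.S34.H78

open Fermat.Agent.S18.H74 Fermat.Agent.S18.H28 Fermat.Agent.S18 Fermat.Agent.S18.H19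
  Fermat.Agent.S18.H8 Fermat.Agent.S34.H19 Fermat.Agent.S34.H61 Fermat.Agent.S34.H30

/-- The base function is one of the three standard ones: `j(q^M)` for `q ≥ 5`, the Hauptmodul of
level two for `q = 3`, the Hauptmodul of level three for `q = 2`. -/
def IsStdBase (M q : ℕ) [NeZero M] (x₀ : FN M) : Prop :=
  (q ≠ 2 ∧ q ≠ 3 ∧ x₀ = jtop M) ∨
  (q = 3 ∧ ∃ (n : ℕ) (_ : NeZero n) (hM : M = n * 2), x₀ = hauptTwo n M hM) ∨
  (q = 2 ∧ ∃ (n : ℕ) (_ : NeZero n) (hM : M = n * 3), x₀ = hauptThree n M hM)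

/-- An admissible base function (`H30.IsBase`) which is one of the three standard ones. -/
def IsBaseStd (M q : ℕ) [NeZero M] [Fact q.Prime] (hqM : ¬ q ∣ M) (A : ValuationSubring Kb)
    (hA : A.LiesOverPrime q) (x₀ : FN M) : Prop :=
  IsBase M q hqM A hA x₀ ∧ IsStdBase M q x₀

theorem IsBaseStd.isBase {M q : ℕ} [NeZero M] [Fact q.Prime] {hqM : ¬ q ∣ M}
    {A : ValuationSubring Kb} {hA : A.LiesOverPrime q} {x₀ : FN M}
    (h : IsBaseStd M q hqM A hA x₀) : IsBase M q hqM A hA x₀ := h.1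

theorem IsBaseStd.isStd {M q : ℕ} [NeZero M] [Fact q.Prime] {hqM : ¬ q ∣ M}
    {A : ValuationSubring Kb} {hA : A.LiesOverPrime q} {x₀ : FN M}
    (h : IsBaseStd M q hqM A hA x₀) : IsStdBase M q x₀ := h.2

/-- **Leaf (L6), concrete form**: at every good level one of the three standard base functions is
admissible. -/
def BaseLeafStd : Prop :=
  ∀ (M q : ℕ) [NeZero M] [Fact q.Prime] (hqM : ¬ q ∣ M), (q ≠ 2 → 2 ∣ M) → (q ≠ 3 → 3 ∣ M) →
    ∀ (A : ValuationSubring Kb) (hA : A.LiesOverPrime q), ∃ x₀ : FN M, IsBaseStd M q hqM A hA x₀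

/-- **Leaf (L6), concrete form.** -/
theorem baseLeafStd : BaseLeafStd := by
  intro M q _ hq hqM h2 h3 A hA
  by_cases hq2 : q = 2
  · -- `q = 2`: the Hauptmodul of level three
    have h3M : 3 ∣ M := h3 (by rw [hq2]; norm_num)
    obtain ⟨n, hn⟩ := h3M
    have hM : M = n * 3 := by rw [hn, mul_comm]
    haveI hn0 : NeZero n := ⟨by
      rintro rfl
      exact NeZero.ne M (by rw [hM, zero_mul])⟩
    obtain ⟨θ, hθ, hspan, hall⟩ := l6_haupt_three n M hqM A hA hM
    refine ⟨hauptThree n M hM, isBase_of_l6 M q hqM A hA _ ⟨hauptThreeRat n M hM, rfl⟩ θ hθ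
      (fun K₀ => ?_), Or.inr (Or.inr ⟨hq2, n, hn0, hM, rfl⟩)⟩
    obtain ⟨F₀, hG, hiff, hS, hS'⟩ := hall K₀
    exact ⟨F₀, hG.x_mem, hiff, fun f => (hiff _).2 (hspan K₀ f), hS, hS'⟩
  by_cases hq3 : q = 3
  · -- `q = 3`: the Hauptmodul of level two
    have h2M : 2 ∣ M := h2 hq2
    obtain ⟨n, hn⟩ := h2M
    have hM : M = n * 2 := by rw [hn, mul_comm]
    haveI hn0 : NeZero n := ⟨by
      rintro rfl
      exact NeZero.ne M (by rw [hM, zero_mul])⟩
    obtain ⟨θ, hθ, hspan, hall⟩ := l6_haupt_two n M hqM A hA hM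
    refine ⟨hauptTwo n M hM, isBase_of_l6 M q hqM A hA _ ⟨hauptTwoRat n M hM, rfl⟩ θ hθ
      (fun K₀ => ?_), Or.inr (Or.inl ⟨hq3, n, hn0, hM, rfl⟩)⟩
    obtain ⟨F₀, hG, hiff, hS, hS'⟩ := hall K₀
    exact ⟨F₀, hG.x_mem, hiff, fun f => (hiff _).2 (hspan K₀ f), hS, hS'⟩
  · -- `q ≥ 5`: `j(q^M)`
    obtain ⟨θ, hθ, hall⟩ := l6_top M hqM A hA hq2 hq3
    refine ⟨jtop M, isBase_of_l6 M q hqM A hA _ ⟨jqNFull M, rfl⟩ θ hθ (fun K₀ => ?_),
      Or.inl ⟨hq2, hq3, rfl⟩⟩
    obtain ⟨F₀, hG, hiff, hmem, hS, hS'⟩ := hall K₀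
    exact ⟨F₀, hG.x_mem, hiff, hmem, hS, hS'⟩

end Fermat.Agent.S34.H78
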