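/-
S34 / Program B' (helper78): **the leaf `H30.DescentLeaf` (M1: descent, (DIV) and (RAT))**,
verbatim from `S34/H30/Leaves.lean`.

For `u ≠ 0` in `F_{Mq}` whose divisor over `ℚ̄` is divisible by `m`: a normal number field `K₀`
over which `u` is defined (`u = u₀ ∈ ratForm (M * q) K₀`), such that at every discrete valuation
ring of `ratForm (M * q) K₀` over `K₀` the function `u₀` is a unit times an `m`-th power (DIV),
and the zeros and poles of `u₀` are `K₀`-rational (RAT).
Inputs: `H78.rat_ratForm`, `H78.div_modular` (`DivRatAdapt`, `DivRatMod`),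
`H61.exists_normal_numberField`.
-/
import Fermat.Agent.S34.H30.Leaves
import Fermat.Agent.S34.H78.DivRatAdapt

set_option autoImplicit false
set_option linter.style.haveILetI false

open AlgebraicCurve IntermediateField ModularCurve

noncomputable section

namespace Fermat.Agent.S34.H78

open Fermat.Agent.S18.H74 Fermat.Agent.S18.H19 Fermat.Agent.S34.H19 Fermat.Agent.S34.H61
  Fermat.Agent.S34.H30

/-- **Leaf (M1), the descent with (DIV) and (RAT).** -/
theorem descentLeaf : DescentLeaf := by
  intro M q _ hq A hAtop O₁ w m u hu hord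
  haveI : NeZero (M * q) := ⟨Nat.mul_ne_zero (NeZero.ne M) hq.out.ne_zero⟩
  obtain ⟨Z, hZ⟩ := rat_ratForm (M * q) u hu
  obtain ⟨K₀, hfd, hnorm, hK₀⟩ := exists_normal_numberField Z
  obtain ⟨u₀, hu₀, hrat⟩ := hZ K₀ hK₀
  refine ⟨K₀, hfd, hnorm, u₀, hu₀, fun ϖ j σ => ⟨?_, ?_⟩⟩
  · intro V hinv _
    have hK : ∀ c : K₀, algebraMap K₀ ↥(ratForm (M * q) K₀) c ∈ V :=
      Fermat.Agent.S18.H61.algebraMap_mem_of_forall_inv_mem (A.comap (algebraMap K₀ Kb)) V hinv
    exact div_modular (M * q) K₀ m u₀ (fun P => by rw [hu₀]; exact hord P) V hK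
  · intro V hinv _ hnu y hy
    exact hrat A V hinv hnu y hy

end Fermat.Agent.S34.H78
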